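/-
S55 (Poitou–Tate), package C1 (finite-group cohomology tools, designer helper84), leaf C1-e
(helper73): DIMENSION SHIFTING.  Mathlib only.

For `A : Rep k G` (any group `G`):

* `coindBot A`   : `Fun(G, A)` with `G` acting by right translation (`= coind` from the trivial
                   subgroup), `toCoindBot A : A ⟶ coindBot A`, `a ↦ (x ↦ ρ(x) a)` (a monomorphism);
* `shiftSES A`   : the short exact sequence `0 ⟶ A ⟶ coindBot A ⟶ dimShift A ⟶ 0`
                   (`shiftSES_shortExact`, `shiftSES_res_shortExact` for its restriction to `S ≤ G`);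
* `mackeyIso A S`: `res_S Fun(G, A) ≅ coind_1^S Fun(G ⧸ S, A)` (Mackey, via `Quotient.out`);
* `isZero_res_coindBot A S n` : `Hⁿ⁺¹(S, Fun(G, A)) = 0` for EVERY subgroup `S ≤ G`
                   (Mackey + Mathlib's Shapiro `coindIso`); `isZero_coindBot` for `G` itself;
* `shiftIso A S n`  : `Hⁿ⁺¹(S, dimShift A) ≅ Hⁿ⁺²(S, A)` for every subgroup `S ≤ G` — the SAME
                   module `dimShift A` for all subgroups; `shiftIsoTop A n` for `G` itself;
* `isZero_res_dimShift_iff`, `isZero_dimShift_iff`, `natCard_res_dimShift`, `natCard_dimShift` :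
                   the consequences used to transport vanishing / orders one degree down.
-/
import Mathlib

set_option autoImplicit false

universe u

open CategoryTheory groupCohomology Rep

namespace Fermat.Agent.S55.H73

variable {k G : Type u} [CommRing k] [Group G]

/-- `Fun(G, A)` with `G` acting by right translation. -/
noncomputable abbrev coindBot (A : Rep.{u} k G) : Rep.{u} k G :=
  coind (⊥ : Subgroup G).subtype (res (⊥ : Subgroup G).subtype A)

/-- `a ↦ (x ↦ ρ(x) a)`. -/
noncomputable def toCoindBot (A : Rep.{u} k G) : A ⟶ coindBot A :=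
  resCoindToHom (⊥ : Subgroup G).subtype A (res (⊥ : Subgroup G).subtype A) (𝟙 _)

theorem toCoindBot_apply (A : Rep.{u} k G) (a : A.V) (x : G) :
    ((toCoindBot A).hom a).1 x = A.ρ x a := rfl

instance mono_toCoindBot (A : Rep.{u} k G) : Mono (toCoindBot A) := by
  rw [Rep.mono_iff_injective]
  intro a b h
  have h1 : ((toCoindBot A).hom a).1 1 = ((toCoindBot A).hom b).1 1 := by rw [h]
  have h2 : A.ρ 1 a = A.ρ 1 b := h1
  simpa using h2

/-- The dimension-shifting sequence `0 ⟶ A ⟶ Fun(G, A) ⟶ dimShift A ⟶ 0`. -/
noncomputable def shiftSES (A : Rep.{u} k G) : ShortComplex (Rep.{u} k G) :=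
  ShortComplex.mk (toCoindBot A) (Limits.cokernel.π (toCoindBot A)) (Limits.cokernel.condition _)

/-- The dimension shift `Fun(G, A) / A`. -/
noncomputable abbrev dimShift (A : Rep.{u} k G) : Rep.{u} k G := (shiftSES A).X₃

theorem shiftSES_shortExact (A : Rep.{u} k G) : (shiftSES A).ShortExact where
  exact := ShortComplex.exact_cokernel _
  mono_f := mono_toCoindBot A
  epi_g := by dsimp [shiftSES]; infer_instance


/-! ### Mackey: `Fun(G, A)` restricted to a subgroup is coinduced from the trivial subgroup -/

section Mackey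

variable (A : Rep.{u} k G) (S : Subgroup G)

/-- The `S`-component `σ(xS)⁻¹ x ∈ S` of `x : G` with respect to the section `Quotient.out`. -/
noncomputable def sPart (x : G) : S :=
  ⟨((QuotientGroup.mk x : G ⧸ S).out)⁻¹ * x, QuotientGroup.eq.mp (QuotientGroup.out_eq' _)⟩

theorem out_mul_sPart (x : G) : (QuotientGroup.mk x : G ⧸ S).out * (sPart S x : G) = x := by
  simp [sPart]

theorem mk_out_mul (c : G ⧸ S) (t : S) : (QuotientGroup.mk (c.out * (t : G)) : G ⧸ S) = c := by
  rw [QuotientGroup.mk_mul_of_mem _ t.2, QuotientGroup.out_eq']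

theorem sPart_out_mul (c : G ⧸ S) (t : S) : sPart S (c.out * (t : G)) = t := by
  apply Subtype.ext
  simp [sPart]

/-- The coefficient module of the Mackey decomposition: `Fun(G ⧸ S, A)` with trivial action of
the trivial subgroup of `S`. -/
noncomputable abbrev mackeyCoeff : Rep.{u} k (⊥ : Subgroup S) :=
  Rep.trivial k (⊥ : Subgroup S) (G ⧸ S → A.V)

/-- The underlying linear equivalence of the Mackey isomorphism. -/
noncomputable def mackeyLinearEquiv :
    (res S.subtype (coindBot A)).V ≃ₗ[k]
      (coind (⊥ : Subgroup S).subtype (mackeyCoeff A S)).V where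
  toFun f := ⟨fun t c => f.1 (c.out * (t : G)), fun g h => by
    have hg : (g : S) = 1 := Subgroup.mem_bot.mp g.2
    funext c
    simp [hg]⟩
  map_add' f f' := rfl
  map_smul' r f := rfl
  invFun F := ⟨fun x => F.1 (sPart S x) (QuotientGroup.mk x), fun g h => by
    have hg : (g : G) = 1 := Subgroup.mem_bot.mp g.2
    simp [hg]⟩
  left_inv f := by
    apply Subtype.ext
    funext x
    change f.1 ((QuotientGroup.mk x : G ⧸ S).out * (sPart S x : G)) = f.1 x
    rw [out_mul_sPart]
  right_inv F := by
    apply Subtype.ext
    funext t c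
    change F.1 (sPart S (c.out * (t : G))) (QuotientGroup.mk (c.out * (t : G))) = F.1 t c
    rw [sPart_out_mul, mk_out_mul]

/-- **Mackey**: the restriction of `Fun(G, A)` to a subgroup `S` is coinduced from the trivial
subgroup of `S`. -/
noncomputable def mackeyIso :
    res S.subtype (coindBot A) ≅ coind (⊥ : Subgroup S).subtype (mackeyCoeff A S) :=
  Rep.mkIso (Representation.Equiv.mk (mackeyLinearEquiv A S) (fun s => by
    apply LinearMap.ext
    intro f
    apply Subtype.ext
    funext t c
    change f.1 (c.out * (t : G) * (s : G)) = f.1 (c.out * ((t * s : S) : G))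
    rw [Subgroup.coe_mul, mul_assoc]))

/-- `Fun(G, A)` is cohomologically trivial in positive degrees on every subgroup. -/
theorem isZero_res_coindBot (n : ℕ) :
    Limits.IsZero (groupCohomology (res S.subtype (coindBot A)) (n + 1)) := by
  have h1 : Limits.IsZero (groupCohomology (mackeyCoeff A S) (n + 1)) :=
    isZero_groupCohomology_succ_of_subsingleton _ n
  have h2 := h1.of_iso (groupCohomology.coindIso (mackeyCoeff A S) (n + 1))
  exact h2.of_iso ((groupCohomology.functor k S (n + 1)).mapIso (mackeyIso A S))

end Mackey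


/-! ### The dimension-shifting isomorphisms -/

section Shift

variable (A : Rep.{u} k G)

/-- `Fun(G, A)` is cohomologically trivial in positive degrees (Shapiro). -/
theorem isZero_coindBot (n : ℕ) : Limits.IsZero (groupCohomology (coindBot A) (n + 1)) :=
  (isZero_groupCohomology_succ_of_subsingleton (res (⊥ : Subgroup G).subtype A) n).of_iso
    (groupCohomology.coindIso (res (⊥ : Subgroup G).subtype A) (n + 1))

/-- The dimension-shifting sequence restricted to a subgroup is short exact. -/
theorem shiftSES_res_shortExact (S : Subgroup G) :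
    ((shiftSES A).map (resFunctor S.subtype)).ShortExact :=
  (shortExact_res S.subtype).2 (shiftSES_shortExact A)

/-- **Dimension shift on `G`**: `Hⁿ⁺¹(G, dimShift A) ≅ Hⁿ⁺²(G, A)`. -/
noncomputable def shiftIsoTop (n : ℕ) :
    groupCohomology (dimShift A) (n + 1) ≅ groupCohomology A (n + 2) :=
  @asIso _ _ _ _ (δ (shiftSES_shortExact A) (n + 1) (n + 2) rfl)
    (isIso_δ_of_isZero (shiftSES_shortExact A) (n + 1) (isZero_coindBot A n)
      (isZero_coindBot A (n + 1)))

/-- **Dimension shift on a subgroup**: `Hⁿ⁺¹(S, dimShift A) ≅ Hⁿ⁺²(S, A)` for every subgroup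
`S ≤ G` (the SAME module `dimShift A` for all subgroups). -/
noncomputable def shiftIso (S : Subgroup G) (n : ℕ) :
    groupCohomology (res S.subtype (dimShift A)) (n + 1) ≅
      groupCohomology (res S.subtype A) (n + 2) :=
  @asIso _ _ _ _ (δ (shiftSES_res_shortExact A S) (n + 1) (n + 2) rfl)
    (isIso_δ_of_isZero (shiftSES_res_shortExact A S) (n + 1) (isZero_res_coindBot A S n)
      (isZero_res_coindBot A S (n + 1)))

theorem isZero_dimShift_iff (n : ℕ) :
    Limits.IsZero (groupCohomology (dimShift A) (n + 1)) ↔
      Limits.IsZero (groupCohomology A (n + 2)) :=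
  (shiftIsoTop A n).isZero_iff

theorem isZero_res_dimShift_iff (S : Subgroup G) (n : ℕ) :
    Limits.IsZero (groupCohomology (res S.subtype (dimShift A)) (n + 1)) ↔
      Limits.IsZero (groupCohomology (res S.subtype A) (n + 2)) :=
  (shiftIso A S n).isZero_iff

theorem natCard_dimShift (n : ℕ) :
    Nat.card (groupCohomology (dimShift A) (n + 1)) = Nat.card (groupCohomology A (n + 2)) :=
  Nat.card_congr (shiftIsoTop A n).toLinearEquiv.toEquiv

theorem natCard_res_dimShift (S : Subgroup G) (n : ℕ) :
    Nat.card (groupCohomology (res S.subtype (dimShift A)) (n + 1)) =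
      Nat.card (groupCohomology (res S.subtype A) (n + 2)) :=
  Nat.card_congr (shiftIso A S n).toLinearEquiv.toEquiv

end Shift

end Fermat.Agent.S55.H73
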