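/-
S55 (Poitou–Tate), package C6 (first inequality, designer helper50), leaf (KEX) (helper73).

For a number field `k ∋ μ_p` (`p` prime) and `g ∈ kˣ` not a `p`-th power, the Kummer extension
`N = k[X]/(X^p - g)` is a number field, Galois over `k` of degree `p` with cyclic Galois group,
and contains a `p`-th root of `g`.

`exists_kummerLayer` is the statement `KummerLayerExistsStatement` of `H50/FirstIneqSpec` with the
structure `KummerLayer k N p g` unpacked into its six fields (`α`, `σ`, `root`, `finrank_eq`,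
`isGalois`, `gen`), in the same order.
-/
import Mathlib
import Fermat.Agent.S55.H8.KummerDefs

set_option autoImplicit false

universe u

open Polynomial

namespace Fermat.Agent.S55.H73

/-- The Kummer layer in plain field-theoretic form (`g : k` not a `p`-th power). -/
theorem exists_kummerLayer_of_forall_ne (k : Type u) [Field k] [NumberField k] (p : ℕ)
    (hp : p.Prime) (ζ : k) (hζ : IsPrimitiveRoot ζ p) (g : k) (hg : ∀ b : k, b ^ p ≠ g) :
    ∃ (N : Type u) (_ : Field N) (_ : NumberField N) (_ : Algebra k N) (α : N)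
      (σ : N ≃ₐ[k] N), α ^ p = algebraMap k N g ∧ Module.finrank k N = p ∧ IsGalois k N ∧
        ∀ τ : N ≃ₐ[k] N, τ ∈ Subgroup.zpowers σ := by
  have H : Irreducible (X ^ p - C g : k[X]) := X_pow_sub_C_irreducible_of_prime hp hg
  have := Fact.mk H
  have hprim : (primitiveRoots p k).Nonempty := ⟨ζ, (mem_primitiveRoots hp.pos).2 hζ⟩
  have hsplit : IsSplittingField k (AdjoinRoot (X ^ p - C g : k[X])) (X ^ p - C g) :=
    isSplittingField_AdjoinRoot_X_pow_sub_C hprim H
  have : NeZero p := ⟨hp.ne_zero⟩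
  have hcyc : IsCyclic (AdjoinRoot (X ^ p - C g : k[X]) ≃ₐ[k] AdjoinRoot (X ^ p - C g : k[X])) :=
    isCyclic_of_isSplittingField_X_pow_sub_C hprim H _
  have hgal : IsGalois k (AdjoinRoot (X ^ p - C g : k[X])) :=
    isGalois_of_isSplittingField_X_pow_sub_C hprim H _
  have hrank : Module.finrank k (AdjoinRoot (X ^ p - C g : k[X])) = p :=
    finrank_of_isSplittingField_X_pow_sub_C hprim H _
  have : FiniteDimensional k (AdjoinRoot (X ^ p - C g : k[X])) :=
    Polynomial.IsSplittingField.finiteDimensional _ (X ^ p - C g)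
  have : NumberField (AdjoinRoot (X ^ p - C g : k[X])) := NumberField.of_module_finite k _
  obtain ⟨σ, hσ⟩ := hcyc.exists_generator
  refine ⟨AdjoinRoot (X ^ p - C g : k[X]), inferInstance, inferInstance, inferInstance,
    AdjoinRoot.root _, σ, ?_, hrank, hgal, hσ⟩
  have h := AdjoinRoot.eval₂_root (X ^ p - C g : k[X])
  rw [eval₂_sub, eval₂_pow, eval₂_X, eval₂_C, sub_eq_zero] at h
  exact h

/-- **(KEX)** `KummerLayerExistsStatement` of `H50/FirstIneqSpec`, with the structure
`KummerLayer k N p g` unpacked into its fields. -/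
theorem exists_kummerLayer (k : Type u) [Field k] [NumberField k] (p : ℕ) (hp : p.Prime)
    (ζ : k) (hζ : IsPrimitiveRoot ζ p) (g : kˣ) (hg : g ∉ Fermat.Agent.S55.H8.pPow p kˣ) :
    ∃ (N : Type u) (_ : Field N) (_ : NumberField N) (_ : Algebra k N) (α : N)
      (σ : N ≃ₐ[k] N), α ^ p = algebraMap k N (g : k) ∧ Module.finrank k N = p ∧
        IsGalois k N ∧ ∀ τ : N ≃ₐ[k] N, τ ∈ Subgroup.zpowers σ := by
  refine exists_kummerLayer_of_forall_ne k p hp ζ hζ (g : k) fun b hb => hg ?_
  have hb0 : b ≠ 0 := by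
    rintro rfl
    rw [zero_pow hp.ne_zero] at hb
    exact g.ne_zero hb.symm
  refine ⟨Units.mk0 b hb0, Units.ext ?_⟩
  simpa using hb

end Fermat.Agent.S55.H73
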