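/-
S55 (Poitou–Tate), package C1 (designer helper84), leaf C1-e' (helper73): dimension shifting on the
`N`-INVARIANTS (the inflation side).  Mathlib + `DimShift.lean` only.

* `shortExact_of_elementwise`, `elementwise_of_shortExact` : short exactness in `Rep k G` in
  terms of the underlying maps;
* `exists_coboundary_of_isZero_H1` : a 1-cocycle is a coboundary when `H¹ = 0`;
* `shortExact_map_quotientToInvariants` : for ANY short exact `0 ⟶ X₁ ⟶ X₂ ⟶ X₃ ⟶ 0` in
  `Rep k G` and `N ⊴ G` with `H¹(N, X₁) = 0`, the sequence `0 ⟶ X₁^N ⟶ X₂^N ⟶ X₃^N ⟶ 0` of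
  `G ⧸ N`-representations is short exact;
* `invCoindIso A N` : `Fun(G, A)^N ≅ Fun(G ⧸ N, A)` (coinduced from the trivial subgroup of
  `G ⧸ N`), `isZero_invariants_coindBot` : it is cohomologically trivial in positive degrees;
* `shiftIsoInv A N h1 n` : `Hⁿ⁺¹(G ⧸ N, (dimShift A)^N) ≅ Hⁿ⁺²(G ⧸ N, A^N)` when `H¹(N, A) = 0`;
  `isZero_invariants_dimShift_iff`, `natCard_invariants_dimShift`.
-/
import Mathlib
import Fermat.Agent.S55.H73.DimShift

set_option autoImplicit false

universe u

open CategoryTheory groupCohomology Rep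

namespace Fermat.Agent.S55.H73

variable {k G : Type u} [CommRing k] [Group G]

/-- Elementwise criterion for short exactness in `Rep k G`. -/
theorem shortExact_of_elementwise (S : ShortComplex (Rep.{u} k G))
    (hf : Function.Injective S.f.hom) (hg : Function.Surjective S.g.hom)
    (hex : ∀ y : S.X₂.V, S.g.hom y = 0 → ∃ x : S.X₁.V, S.f.hom x = y) : S.ShortExact where
  exact := by
    rw [← ShortComplex.exact_map_iff_of_faithful S (forget₂ (Rep.{u} k G) (ModuleCat.{u} k)),
      ShortComplex.moduleCat_exact_iff]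
    exact hex
  mono_f := (Rep.mono_iff_injective _).2 hf
  epi_g := (Rep.epi_iff_surjective _).2 hg

/-- Elementwise consequences of short exactness in `Rep k G`. -/
theorem elementwise_of_shortExact {S : ShortComplex (Rep.{u} k G)} (hS : S.ShortExact) :
    Function.Injective S.f.hom ∧ Function.Surjective S.g.hom ∧
      (∀ x : S.X₁.V, S.g.hom (S.f.hom x) = 0) ∧
      (∀ y : S.X₂.V, S.g.hom y = 0 → ∃ x : S.X₁.V, S.f.hom x = y) := by
  have hex := (ShortComplex.moduleCat_exact_iff _).1
    (hS.exact.map (forget₂ (Rep.{u} k G) (ModuleCat.{u} k)))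
  refine ⟨(Rep.mono_iff_injective _).1 hS.mono_f, (Rep.epi_iff_surjective _).1 hS.epi_g,
    fun x => ?_, hex⟩
  have h0 : (S.f ≫ S.g).hom x = 0 := by rw [S.zero]; rfl
  exact h0

/-- A 1-cocycle is a coboundary when `H¹` vanishes. -/
theorem exists_coboundary_of_isZero_H1 (A : Rep.{u} k G)
    (h : Limits.IsZero (groupCohomology A 1)) (c : G → A.V)
    (hc : ∀ g h : G, c (g * h) = A.ρ g (c h) + c g) : ∃ a : A.V, ∀ g : G, c g = A.ρ g a - a := by
  have hsub : Subsingleton (groupCohomology A 1) := ModuleCat.subsingleton_of_isZero h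
  have hx : H1π A ⟨c, (mem_cocycles₁_iff c).2 hc⟩ = 0 := Subsingleton.elim _ _
  obtain ⟨a, ha⟩ := (H1π_eq_zero_iff _).1 hx
  exact ⟨a, fun g => (congrFun ha g).symm⟩


/-- The invariants functor `A ↦ A^N` (as a `G ⧸ N`-representation) preserves zero morphisms. -/
instance quotientToInvariantsFunctor_preservesZeroMorphisms (N : Subgroup G) [N.Normal] :
    (quotientToInvariantsFunctor.{u} k N).PreservesZeroMorphisms where
  map_zero _ _ := rfl

/-- **Invariants of a short exact sequence.**  If `0 ⟶ X₁ ⟶ X₂ ⟶ X₃ ⟶ 0` is short exact in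
`Rep k G`, `N ⊴ G` and `H¹(N, X₁) = 0`, then `0 ⟶ X₁^N ⟶ X₂^N ⟶ X₃^N ⟶ 0` is short exact in
`Rep k (G ⧸ N)`. -/
theorem shortExact_map_quotientToInvariants {X : ShortComplex (Rep.{u} k G)} (hX : X.ShortExact)
    (N : Subgroup G) [N.Normal]
    (h1 : Limits.IsZero (groupCohomology (res N.subtype X.X₁) 1)) :
    (X.map (quotientToInvariantsFunctor k N)).ShortExact := by
  obtain ⟨hf, hg, hzero, hex⟩ := elementwise_of_shortExact hX
  refine shortExact_of_elementwise _ ?_ ?_ ?_
  · -- injectivity
    rintro ⟨x, hx⟩ ⟨y, hy⟩ h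
    have h' : X.f.hom x = X.f.hom y := congrArg Subtype.val h
    exact Subtype.ext (hf h')
  · -- surjectivity: this is where `H¹(N, X₁) = 0` is used
    rintro ⟨q, hq⟩
    obtain ⟨y, rfl⟩ := hg q
    have hq' : ∀ n : N, X.X₃.ρ (n : G) (X.g.hom y) = X.g.hom y := fun n => hq n
    have hker : ∀ n : N, X.g.hom (X.X₂.ρ (n : G) y - y) = 0 := fun n => by
      rw [map_sub, hom_comm_apply, hq' n, sub_self]
    choose c hc using fun n : N => hex _ (hker n)
    have hcoc : ∀ n m : N, c (n * m) = (res N.subtype X.X₁).ρ n (c m) + c n := by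
      intro n m
      apply hf
      have e1 : X.f.hom ((res N.subtype X.X₁).ρ n (c m)) = X.X₂.ρ (n : G) (X.f.hom (c m)) :=
        hom_comm_apply X.f (n : G) (c m)
      rw [map_add, e1, hc, hc, hc, Subgroup.coe_mul, map_mul, Module.End.mul_apply, map_sub]
      abel
    obtain ⟨a, ha⟩ := exists_coboundary_of_isZero_H1 (res N.subtype X.X₁) h1 c hcoc
    have ha' : ∀ n : N, c n = X.X₁.ρ (n : G) a - a := ha
    refine ⟨⟨y - X.f.hom a, fun n => ?_⟩, Subtype.ext ?_⟩
    · change X.X₂.ρ (n : G) (y - X.f.hom a) = y - X.f.hom a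
      have e2 : X.f.hom (c n) = X.X₂.ρ (n : G) (X.f.hom a) - X.f.hom a := by
        rw [ha' n, map_sub, hom_comm_apply]
      have e4 : X.X₂.ρ (n : G) y - y = X.X₂.ρ (n : G) (X.f.hom a) - X.f.hom a := by
        rw [← hc n, e2]
      rw [map_sub]
      exact sub_eq_sub_iff_sub_eq_sub.mp e4
    · change X.g.hom (y - X.f.hom a) = X.g.hom y
      rw [map_sub, hzero, sub_zero]
  · -- exactness in the middle
    rintro ⟨y, hy⟩ h
    have h' : X.g.hom y = 0 := congrArg Subtype.val h
    obtain ⟨x, rfl⟩ := hex y h'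
    refine ⟨⟨x, fun n => hf ?_⟩, Subtype.ext rfl⟩
    have e1 : X.f.hom ((X.X₁.ρ.comp N.subtype) n x) = X.X₂.ρ (n : G) (X.f.hom x) :=
      hom_comm_apply X.f (n : G) x
    rw [e1]
    exact hy n


/-! ### `N`-invariants of `Fun(G, A)` -/

section InvCoind

variable (A : Rep.{u} k G) (N : Subgroup G) [N.Normal]

/-- An `N`-invariant function on `G` is constant on the cosets of `N`. -/
theorem invariant_apply_mul (ψ : ((coindBot A).quotientToInvariants N).V) (x : G) (n : N) :
    ψ.1.1 (x * (n : G)) = ψ.1.1 x := by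
  have h := ψ.2 n
  exact congrFun (congrArg Subtype.val h) x

theorem invariant_apply_out (ψ : ((coindBot A).quotientToInvariants N).V) (x : G) :
    ψ.1.1 (QuotientGroup.mk x : G ⧸ N).out = ψ.1.1 x := by
  obtain ⟨n, hn⟩ := QuotientGroup.mk_out_eq_mul N x
  rw [hn, invariant_apply_mul]

/-- The coefficient module: `A` with the trivial action of the trivial subgroup of `G ⧸ N`. -/
noncomputable abbrev invCoeff : Rep.{u} k (⊥ : Subgroup (G ⧸ N)) :=
  Rep.trivial k (⊥ : Subgroup (G ⧸ N)) A.V

/-- `Fun(G, A)^N ≃ Fun(G ⧸ N, A)`, underlying linear equivalence. -/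
noncomputable def invCoindLinearEquiv :
    ((coindBot A).quotientToInvariants N).V ≃ₗ[k]
      (coind (⊥ : Subgroup (G ⧸ N)).subtype (invCoeff A N)).V where
  toFun ψ := ⟨fun c => ψ.1.1 c.out, fun g h => by
    have hg : (g : G ⧸ N) = 1 := Subgroup.mem_bot.mp g.2
    simp [hg]⟩
  map_add' ψ ψ' := rfl
  map_smul' r ψ := rfl
  invFun F := ⟨⟨fun x => F.1 (QuotientGroup.mk x), fun g h => by
      have hg : (g : G) = 1 := Subgroup.mem_bot.mp g.2
      simp [hg]⟩, fun n => by
      apply Subtype.ext
      funext x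
      change F.1 (QuotientGroup.mk (x * (n : G))) = F.1 (QuotientGroup.mk x)
      rw [QuotientGroup.mk_mul_of_mem _ n.2]⟩
  left_inv ψ := by
    apply Subtype.ext
    apply Subtype.ext
    funext x
    exact invariant_apply_out A N ψ x
  right_inv F := by
    apply Subtype.ext
    funext c
    change F.1 (QuotientGroup.mk c.out) = F.1 c
    rw [QuotientGroup.out_eq']

theorem invCoindLinearEquiv_apply_mk (ψ : ((coindBot A).quotientToInvariants N).V) (x : G) :
    (invCoindLinearEquiv A N ψ).1 (QuotientGroup.mk x) = ψ.1.1 x :=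
  invariant_apply_out A N ψ x

/-- `Fun(G, A)^N ≅ Fun(G ⧸ N, A)` as representations of `G ⧸ N`. -/
noncomputable def invCoindIso :
    (coindBot A).quotientToInvariants N ≅
      coind (⊥ : Subgroup (G ⧸ N)).subtype (invCoeff A N) :=
  Rep.mkIso (Representation.Equiv.mk (invCoindLinearEquiv A N) (fun c => by
    induction c using QuotientGroup.induction_on with
    | H g =>
      apply LinearMap.ext
      intro ψ
      apply Subtype.ext
      funext d
      induction d using QuotientGroup.induction_on with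
      | H x =>
        change (invCoindLinearEquiv A N
            (((coindBot A).quotientToInvariants N).ρ (QuotientGroup.mk g) ψ)).1
              (QuotientGroup.mk x) =
          (invCoindLinearEquiv A N ψ).1 (QuotientGroup.mk (x * g))
        rw [invCoindLinearEquiv_apply_mk, invCoindLinearEquiv_apply_mk]
        rfl))

/-- `Fun(G, A)^N` is cohomologically trivial for `G ⧸ N` in positive degrees. -/
theorem isZero_invariants_coindBot (n : ℕ) :
    Limits.IsZero (groupCohomology ((coindBot A).quotientToInvariants N) (n + 1)) := by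
  have h1 : Limits.IsZero (groupCohomology (invCoeff A N) (n + 1)) :=
    isZero_groupCohomology_succ_of_subsingleton _ n
  have h2 := h1.of_iso (groupCohomology.coindIso (invCoeff A N) (n + 1))
  exact h2.of_iso ((groupCohomology.functor k (G ⧸ N) (n + 1)).mapIso (invCoindIso A N))

end InvCoind

/-! ### Dimension shifting on the invariants -/

section ShiftInv

variable (A : Rep.{u} k G) (N : Subgroup G) [N.Normal]

/-- If `H¹(N, A) = 0`, then `0 ⟶ A^N ⟶ Fun(G, A)^N ⟶ (dimShift A)^N ⟶ 0` is a short exact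
sequence of representations of `G ⧸ N`. -/
theorem shiftSES_invariants_shortExact
    (h1 : Limits.IsZero (groupCohomology (res N.subtype A) 1)) :
    ((shiftSES A).map (quotientToInvariantsFunctor k N)).ShortExact :=
  shortExact_map_quotientToInvariants (shiftSES_shortExact A) N h1

/-- **Dimension shift on the invariants**: if `H¹(N, A) = 0`, then
`Hⁿ⁺¹(G ⧸ N, (dimShift A)^N) ≅ Hⁿ⁺²(G ⧸ N, A^N)`. -/
noncomputable def shiftIsoInv (h1 : Limits.IsZero (groupCohomology (res N.subtype A) 1))
    (n : ℕ) :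
    groupCohomology ((dimShift A).quotientToInvariants N) (n + 1) ≅
      groupCohomology (A.quotientToInvariants N) (n + 2) :=
  @asIso _ _ _ _ (δ (shiftSES_invariants_shortExact A N h1) (n + 1) (n + 2) rfl)
    (isIso_δ_of_isZero (shiftSES_invariants_shortExact A N h1) (n + 1)
      (isZero_invariants_coindBot A N n) (isZero_invariants_coindBot A N (n + 1)))

theorem isZero_invariants_dimShift_iff
    (h1 : Limits.IsZero (groupCohomology (res N.subtype A) 1)) (n : ℕ) :
    Limits.IsZero (groupCohomology ((dimShift A).quotientToInvariants N) (n + 1)) ↔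
      Limits.IsZero (groupCohomology (A.quotientToInvariants N) (n + 2)) :=
  (shiftIsoInv A N h1 n).isZero_iff

theorem natCard_invariants_dimShift
    (h1 : Limits.IsZero (groupCohomology (res N.subtype A) 1)) (n : ℕ) :
    Nat.card (groupCohomology ((dimShift A).quotientToInvariants N) (n + 1)) =
      Nat.card (groupCohomology (A.quotientToInvariants N) (n + 2)) :=
  Nat.card_congr (shiftIsoInv A N h1 n).toLinearEquiv.toEquiv

end ShiftInv

end Fermat.Agent.S55.H73
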