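/-
S55 (Poitou–Tate), package C1 (designer helper84), TATE-3 leaf (T-b) (helper73).

  `normSurj_dimShift` : if `H¹(H, A) = 0` then every `H`-invariant element of
  `dimShift A = Fun(G, A) / A` is an `H`-norm (`Ĥ⁰(H, dimShift A) = 0`).

Proof: lift the invariant to an `H`-invariant function (`exists_invariant_lift`, uses
`H¹(H, A) = 0`), and an `H`-invariant function is the norm of its truncation to a set of coset
representatives (`exists_norm_eq_of_invariant`).
-/
import Mathlib
import Fermat.Agent.S55.H73.DimShiftInv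
import Fermat.Agent.S55.H84.TateDefs

set_option autoImplicit false

universe u

open CategoryTheory groupCohomology Rep

namespace Fermat.Agent.S55.H73

variable {k G : Type u} [CommRing k] [Group G]

/-- **Lifting invariants** (no normality needed): in a short exact sequence
`0 ⟶ X₁ ⟶ X₂ ⟶ X₃ ⟶ 0` of `G`-representations, an `H`-invariant element of `X₃` lifts to an
`H`-invariant element of `X₂` as soon as `H¹(H, X₁) = 0`. -/
theorem exists_invariant_lift {X : ShortComplex (Rep.{u} k G)} (hX : X.ShortExact)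
    (H : Subgroup G) (h1 : Limits.IsZero (groupCohomology (res H.subtype X.X₁) 1))
    (q : X.X₃.V) (hq : ∀ h ∈ H, X.X₃.ρ h q = q) :
    ∃ y : X.X₂.V, X.g.hom y = q ∧ ∀ h ∈ H, X.X₂.ρ h y = y := by
  obtain ⟨hf, hg, hzero, hex⟩ := elementwise_of_shortExact hX
  obtain ⟨y, rfl⟩ := hg q
  have hker : ∀ n : H, X.g.hom (X.X₂.ρ (n : G) y - y) = 0 := fun n => by
    rw [map_sub, hom_comm_apply, hq n n.2, sub_self]
  choose c hc using fun n : H => hex _ (hker n)
  have hcoc : ∀ n m : H, c (n * m) = (res H.subtype X.X₁).ρ n (c m) + c n := by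
    intro n m
    apply hf
    have e1 : X.f.hom ((res H.subtype X.X₁).ρ n (c m)) = X.X₂.ρ (n : G) (X.f.hom (c m)) :=
      hom_comm_apply X.f (n : G) (c m)
    rw [map_add, e1, hc, hc, hc, Subgroup.coe_mul, map_mul, Module.End.mul_apply, map_sub]
    abel
  obtain ⟨a, ha⟩ := exists_coboundary_of_isZero_H1 (res H.subtype X.X₁) h1 c hcoc
  have ha' : ∀ n : H, c n = X.X₁.ρ (n : G) a - a := ha
  refine ⟨y - X.f.hom a, ?_, fun h hh => ?_⟩
  · rw [map_sub, hzero, sub_zero]
  · have e2 : X.f.hom (c ⟨h, hh⟩) = X.X₂.ρ h (X.f.hom a) - X.f.hom a := by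
      rw [ha' ⟨h, hh⟩, map_sub, hom_comm_apply]
    have e4 : X.X₂.ρ h y - y = X.X₂.ρ h (X.f.hom a) - X.f.hom a := by
      rw [← hc ⟨h, hh⟩, e2]
    rw [map_sub]
    exact sub_eq_sub_iff_sub_eq_sub.mp e4

/-- The truncation of a function on `G` to the coset representatives `Quotient.out` of `G ⧸ H`. -/
noncomputable def truncOut (A : Rep.{u} k G) (H : Subgroup G) (c : (coindBot A).V) :
    (coindBot A).V :=
  ⟨fun x => by
      classical
      exact if x = (QuotientGroup.mk x : G ⧸ H).out then c.1 x else 0,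
    fun g x => by
      have hg : g = 1 := Subsingleton.elim _ _
      subst hg
      have h1 : ((⊥ : Subgroup G).subtype 1 : G) * x = x := by simp
      rw [h1]
      simp⟩

theorem truncOut_apply (A : Rep.{u} k G) (H : Subgroup G) (c : (coindBot A).V) (x : G)
    [Decidable (x = (QuotientGroup.mk x : G ⧸ H).out)] :
    (truncOut A H c).1 x = if x = (QuotientGroup.mk x : G ⧸ H).out then c.1 x else 0 := by
  simp only [truncOut]
  congr

/-- An `H`-invariant function on `G` is the `H`-norm of its truncation to a set of coset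
representatives. -/
theorem exists_norm_eq_of_invariant (A : Rep.{u} k G) (H : Subgroup G) [Fintype H]
    (c : (coindBot A).V) (hc : ∀ h ∈ H, (coindBot A).ρ h c = c) :
    c = ∑ h : H, (coindBot A).ρ (h : G) (truncOut A H c) := by
  classical
  apply Subtype.ext
  funext x
  have hinv : ∀ h : H, c.1 (x * (h : G)) = c.1 x := fun h => by
    have := congrArg (fun f : (coindBot A).V => f.1 x) (hc h h.2)
    exact this
  have hsum : (∑ h : H, (coindBot A).ρ (h : G) (truncOut A H c)).1 x =
      ∑ h : H, (truncOut A H c).1 (x * (h : G)) := by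
    have h1 : (∑ h : H, (coindBot A).ρ (h : G) (truncOut A H c)).1 =
        ∑ h : H, ((coindBot A).ρ (h : G) (truncOut A H c)).1 := by
      simp
    rw [h1, Finset.sum_apply]
    rfl
  rw [hsum]
  rw [Finset.sum_eq_single ((sPart H x)⁻¹)]
  · rw [truncOut_apply, if_pos, hinv]
    have h2 : x * (((sPart H x)⁻¹ : H) : G) = (QuotientGroup.mk x : G ⧸ H).out := by
      have := out_mul_sPart H x
      rw [Subgroup.coe_inv, mul_inv_eq_iff_eq_mul]
      exact this.symm
    rw [h2, QuotientGroup.out_eq']
  · intro h _ hne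
    rw [truncOut_apply, if_neg]
    intro heq
    apply hne
    have h3 : (QuotientGroup.mk (x * (h : G)) : G ⧸ H) = QuotientGroup.mk x :=
      QuotientGroup.mk_mul_of_mem _ h.2
    rw [h3] at heq
    have h4 := out_mul_sPart H x
    apply Subtype.ext
    rw [Subgroup.coe_inv]
    rw [← heq] at h4
    have h5 : (h : G) * (sPart H x : G) = 1 := by
      have := mul_left_cancel (a := x) (b := (h : G) * (sPart H x : G)) (c := 1)
        (by rw [← mul_assoc, h4, mul_one])
      exact this
    exact eq_inv_of_mul_eq_one_left h5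
  · intro h
    exact absurd (Finset.mem_univ _) h

/-- **(T-b)** If `H¹(H, A) = 0` then every `H`-invariant of `dimShift A = Fun(G, A) / A` is an
`H`-norm. -/
theorem normSurj_dimShift [Finite G] (A : Rep.{u} k G) (H : Subgroup G)
    (h1 : Limits.IsZero (groupCohomology (res H.subtype A) 1)) :
    Fermat.Agent.S55.H84.NormSurj (dimShift A) H := by
  classical
  have := Fintype.ofFinite H
  rw [Fermat.Agent.S55.H84.normSurj_iff_of_fintype]
  intro b hb
  obtain ⟨y, hy, hyinv⟩ : ∃ y : (coindBot A).V, (shiftSES A).g.hom y = b ∧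
      ∀ h ∈ H, (coindBot A).ρ h y = y :=
    exists_invariant_lift (shiftSES_shortExact A) H h1 b hb
  refine ⟨(shiftSES A).g.hom (truncOut A H y), ?_⟩
  have h2 := exists_norm_eq_of_invariant A H y hyinv
  have h3 : (shiftSES A).g.hom y =
      ∑ h : H, (shiftSES A).g.hom ((coindBot A).ρ (h : G) (truncOut A H y)) := by
    conv_lhs => rw [h2]
    exact map_sum (shiftSES A).g.hom _ _
  rw [← hy, h3]
  refine Finset.sum_congr rfl fun h _ => ?_
  exact hom_comm_apply (shiftSES A).g (h : G) (truncOut A H y)

end Fermat.Agent.S55.H73
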