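/-
S55 (Poitou–Tate), package C1 (designer helper84), leaf C1-f (helper73): the degree-3 forms by
dimension shifting, and the TWIN NUMBER CRITERION in degree 3.

On the landed C1-b (`H80.isZero_of_forall_prime`), C1-c (`H84.isZero_H2_of_isZero`) and the
dimension shift `H73.DimShift`, `H73.DimShiftInv`:

* `isZero_H3_of_isZero`  : `N ⊴ G`, `Hⁱ(N, A) = 0` for `i = 1, 2, 3` and `H³(G ⧸ N, A^N) = 0`
                           imply `H³(G, A) = 0` (inflation–restriction in degree 3, vanishing form);
* `isZero_H3_of_forall_prime` : if for every prime `p` some subgroup `S` with `p ∤ [G : S]` has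
                           `H³(S, A) = 0`, then `H³(G, A) = 0`;
* `isZero_H3_of_isZero_H1_of_isCyclic` : for a finite cyclic group, `H¹ = 0 ⟹ H³ = 0`
                           (periodicity);
* `isZero_H3_res_of_card_eq_pow` : the induction over `p`-subgroups;
* `isZero_H3_of_forall_subgroup` : **twin number criterion, degree 3**: if `H¹(S, A) = 0` and
                           `H²(S, A) = 0` for every subgroup `S` of the finite group `G`, then
                           `H³(G, A) = 0`.
-/
import Mathlib
import Fermat.Agent.S55.H73.Devissage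
import Fermat.Agent.S55.H73.DimShiftInv
import Fermat.Agent.S55.H80.ResIndexCor
import Fermat.Agent.S55.H84.InfRes2

set_option autoImplicit false

universe u

open CategoryTheory groupCohomology Rep

namespace Fermat.Agent.S55.H73

variable {k G : Type u} [CommRing k] [Group G]

/-- **Inflation–restriction in degree 3, vanishing form.** -/
theorem isZero_H3_of_isZero (A : Rep.{u} k G) (N : Subgroup G) [N.Normal]
    (h1 : Limits.IsZero (groupCohomology (res N.subtype A) 1))
    (h2 : Limits.IsZero (groupCohomology (res N.subtype A) 2))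
    (h3 : Limits.IsZero (groupCohomology (res N.subtype A) 3))
    (hq : Limits.IsZero (groupCohomology (A.quotientToInvariants N) 3)) :
    Limits.IsZero (groupCohomology A 3) :=
  (isZero_dimShift_iff A 1).1
    (Fermat.Agent.S55.H84.isZero_H2_of_isZero (dimShift A) N
      ((isZero_res_dimShift_iff A N 0).2 h2)
      ((isZero_invariants_dimShift_iff A N h1 1).2 hq)
      ((isZero_res_dimShift_iff A N 1).2 h3))

/-- **Sylow step in degree 3.** -/
theorem isZero_H3_of_forall_prime [Finite G] (A : Rep.{u} k G)
    (h : ∀ p : ℕ, p.Prime → ∃ S : Subgroup G, ¬ p ∣ S.index ∧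
      Limits.IsZero (groupCohomology (res S.subtype A) 3)) :
    Limits.IsZero (groupCohomology A 3) :=
  (isZero_dimShift_iff A 1).1
    (Fermat.Agent.S55.H80.isZero_of_forall_prime (dimShift A) 2 (Or.inr rfl) fun p hp => by
      obtain ⟨S, hS, hz⟩ := h p hp
      exact ⟨S, hS, (isZero_res_dimShift_iff A S 1).2 hz⟩)

/-- **Periodicity** for a finite cyclic group: `H¹ = 0 ⟹ H³ = 0`. -/
theorem isZero_H3_of_isZero_H1_of_isCyclic {C : Type u} [Group C] [Finite C] [IsCyclic C]
    (B : Rep.{u} k C) (h : Limits.IsZero (groupCohomology B 1)) :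
    Limits.IsZero (groupCohomology B 3) := by
  let _ : CommGroup C := IsCyclic.commGroup
  let _ : Fintype C := Fintype.ofFinite C
  obtain ⟨g, hg⟩ := IsCyclic.exists_generator (α := C)
  exact h.of_iso
    ((Rep.FiniteCyclicGroup.groupCohomologyIsoOdd B g hg 3 (by decide)) ≪≫
      (Rep.FiniteCyclicGroup.groupCohomologyIsoOdd B g hg 1 (by decide)).symm)

/-- The induction over `p`-subgroups: if `H¹` and `H²` vanish on all subgroups of `G`, then
`H³(H, A) = 0` for every `p`-subgroup `H ≤ G`. -/
theorem isZero_H3_res_of_card_eq_pow [Finite G] (A : Rep.{u} k G)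
    (h1 : ∀ S : Subgroup G, Limits.IsZero (groupCohomology (res S.subtype A) 1))
    (h2 : ∀ S : Subgroup G, Limits.IsZero (groupCohomology (res S.subtype A) 2))
    (p : ℕ) [Fact p.Prime] :
    ∀ (m : ℕ) (H : Subgroup G), Nat.card H = p ^ m →
      Limits.IsZero (groupCohomology (res H.subtype A) 3) := by
  intro m
  induction m with
  | zero =>
    intro H hH
    rw [pow_zero] at hH
    have : Subsingleton H := (Nat.card_eq_one_iff_unique.mp hH).1
    exact isZero_groupCohomology_succ_of_subsingleton _ 2
  | succ m ih =>
    intro H hH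
    obtain ⟨N, hnorm, hN, hprime⟩ := exists_normal_of_card_eq_pow_succ H p m hH
    have := hnorm
    have hcardN : Nat.card (N.map H.subtype) = p ^ m := by
      rw [Subgroup.card_map_of_injective H.subtype_injective, hN]
    have e1 := isZero_resRes A H N 1 (h1 (N.map H.subtype))
    have e2 := isZero_resRes A H N 2 (h2 (N.map H.subtype))
    have e3 := isZero_resRes A H N 3 (ih (N.map H.subtype) hcardN)
    -- the cyclic quotient
    have hmono : Mono (H1InfRes (res H.subtype A) N).f := inferInstance
    have hq1 : Limits.IsZero (groupCohomology ((res H.subtype A).quotientToInvariants N) 1) :=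
      @Limits.IsZero.of_mono _ _ _ _ _ (H1InfRes (res H.subtype A) N).f hmono (h1 H)
    have : IsCyclic (H ⧸ N) := isCyclic_of_prime_card hprime
    exact isZero_H3_of_isZero (res H.subtype A) N e1 e2 e3
      (isZero_H3_of_isZero_H1_of_isCyclic _ hq1)

/-- **Twin number criterion in degree 3.**  If `H¹(S, A) = 0` and `H²(S, A) = 0` for every
subgroup `S` of the finite group `G`, then `H³(G, A) = 0`. -/
theorem isZero_H3_of_forall_subgroup [Finite G] (A : Rep.{u} k G)
    (h1 : ∀ S : Subgroup G, Limits.IsZero (groupCohomology (res S.subtype A) 1))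
    (h2 : ∀ S : Subgroup G, Limits.IsZero (groupCohomology (res S.subtype A) 2)) :
    Limits.IsZero (groupCohomology A 3) := by
  refine isZero_H3_of_forall_prime A fun p hp => ?_
  have : Fact p.Prime := ⟨hp⟩
  obtain ⟨P⟩ : Nonempty (Sylow p G) := inferInstance
  exact ⟨P.toSubgroup, P.not_dvd_index,
    isZero_H3_res_of_card_eq_pow A h1 h2 p _ P.toSubgroup P.card_eq_multiplicity⟩

end Fermat.Agent.S55.H73
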