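/-
S55 (Poitou–Tate), finite-group cohomology tools (helper73): EXPLICIT SHAPIRO IN ALL DEGREES.

For a subgroup `S ≤ G` and `A : Rep k S`, the explicit map

  `shapiroMap S A n : Hⁿ(G, Coind_S^G A) ⟶ Hⁿ(S, A)`,   `[f] ↦ [(s₁, …, sₙ) ↦ f (s₁, …, sₙ) 1]`

(restriction to `S` followed by evaluation at `1`, i.e. `groupCohomology.map S.subtype (coindEv S A) n`)
is bijective for every `n` (`shapiroMap_bijective`).  Mathlib's `groupCohomology.coindIso` is an
abstract isomorphism; here it is only used for the acyclicity of `Coind_S^G Fun(S, A)`.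

Proof: dimension shifting along `0 ⟶ A ⟶ Fun(S, A) ⟶ dimShift A ⟶ 0` (`H73.shiftSES`), exactness
of `Coind_S^G`, and the naturality of the connecting homomorphisms for the Shapiro ladder.
-/
import Mathlib
import Fermat.Agent.S55.H73.DimShiftInv

set_option autoImplicit false

universe u

open CategoryTheory groupCohomology Rep

namespace Fermat.Agent.S55.H73

variable {k G : Type u} [CommRing k] [Group G] (S : Subgroup G)

/-- Evaluation at `1`: `Res_S Coind_S^G A ⟶ A`. -/
noncomputable def coindEv (A : Rep.{u} k S) : res S.subtype (coind S.subtype A) ⟶ A :=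
  Rep.ofHom ⟨{ toFun := fun f => f.1 1
               map_add' := fun _ _ => rfl
               map_smul' := fun _ _ => rfl }, fun s => LinearMap.ext fun f => by
    change f.1 (1 * (s : G)) = A.ρ s (f.1 1)
    have h := f.2 s 1
    rw [one_mul]
    rw [Subgroup.coe_subtype, mul_one] at h
    exact h⟩

theorem coindEv_apply (A : Rep.{u} k S) (f : (coind S.subtype A).V) :
    (coindEv S A).hom f = f.1 1 := rfl

/-- The explicit Shapiro map `Hⁿ(G, Coind_S^G A) ⟶ Hⁿ(S, A)`. -/
noncomputable abbrev shapiroMap (A : Rep.{u} k S) (n : ℕ) :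
    groupCohomology (coind S.subtype A) n ⟶ groupCohomology A n :=
  groupCohomology.map S.subtype (coindEv S A) n

/-- The Shapiro cochain maps are natural in the coefficients. -/
theorem cochainsMap_coindEv_naturality {A B : Rep.{u} k S} (g : A ⟶ B) :
    cochainsMap (MonoidHom.id G) (coindMap S.subtype g) ≫ cochainsMap S.subtype (coindEv S B) =
      cochainsMap S.subtype (coindEv S A) ≫ cochainsMap (MonoidHom.id S) g := by
  ext n : 1
  refine ModuleCat.hom_ext (LinearMap.ext fun c => ?_)
  rfl

/-- The Shapiro maps are natural in the coefficients. -/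
theorem shapiroMap_naturality {A B : Rep.{u} k S} (g : A ⟶ B) (n : ℕ) :
    groupCohomology.map (MonoidHom.id G) (coindMap S.subtype g) n ≫ shapiroMap S B n =
      shapiroMap S A n ≫ groupCohomology.map (MonoidHom.id S) g n := by
  show HomologicalComplex.homologyMap _ n ≫ HomologicalComplex.homologyMap _ n =
    HomologicalComplex.homologyMap _ n ≫ HomologicalComplex.homologyMap _ n
  rw [← HomologicalComplex.homologyMap_comp, ← HomologicalComplex.homologyMap_comp,
    cochainsMap_coindEv_naturality]

/-- Coinduction from a subgroup is exact. -/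
theorem coind_shortExact {X : ShortComplex (Rep.{u} k S)} (hX : X.ShortExact) :
    (X.map (coindFunctor k S.subtype)).ShortExact := by
  obtain ⟨hf, hg, hzero, hex⟩ := elementwise_of_shortExact hX
  refine shortExact_of_elementwise _ ?_ ?_ ?_
  · intro a b h
    apply Subtype.ext
    funext x
    apply hf
    exact congrArg (fun f : (coind S.subtype X.X₂).V => f.1 x) h
  · have h1 : Epi X.g := hX.epi_g
    have h2 : Epi ((coindFunctor k S.subtype).map X.g) := inferInstance
    exact (Rep.epi_iff_surjective _).1 h2
  · intro y hy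
    have h0 : ∀ x, X.g.hom (y.1 x) = 0 := fun x =>
      congrArg (fun f : (coind S.subtype X.X₃).V => f.1 x) hy
    choose a ha using fun x => hex _ (h0 x)
    refine ⟨⟨a, fun s x => hf ?_⟩, Subtype.ext (funext ha)⟩
    rw [ha, hom_comm_apply, ha]
    exact y.2 s x

/-- The Shapiro maps commute with the connecting homomorphisms. -/
theorem shapiro_δ {X : ShortComplex (Rep.{u} k S)} (hX : X.ShortExact) (i j : ℕ)
    (hij : i + 1 = j) :
    δ (coind_shortExact S hX) i j hij ≫ shapiroMap S X.X₁ j =
      shapiroMap S X.X₃ i ≫ δ hX i j hij := by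
  let Φ : (X.map (coindFunctor k S.subtype)).map (cochainsFunctor k G) ⟶
      X.map (cochainsFunctor k S) :=
    { τ₁ := cochainsMap S.subtype (coindEv S X.X₁)
      τ₂ := cochainsMap S.subtype (coindEv S X.X₂)
      τ₃ := cochainsMap S.subtype (coindEv S X.X₃)
      comm₁₂ := cochainsMap_coindEv_naturality S X.f
      comm₂₃ := cochainsMap_coindEv_naturality S X.g }
  exact HomologicalComplex.HomologySequence.δ_naturality Φ
    (map_cochainsFunctor_shortExact (coind_shortExact S hX))
    (map_cochainsFunctor_shortExact hX) i j hij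

/-- Degree `0`: the invariants of `Coind_S^G A` are the constant functions with value in `A^S`. -/
theorem shapiroMap_zero_bijective (A : Rep.{u} k S) :
    Function.Bijective (shapiroMap S A 0).hom := by
  have key : ∀ x : groupCohomology (coind S.subtype A) 0,
      (((H0Iso A).hom ((shapiroMap S A 0).hom x) : A.ρ.invariants) : A.V) =
        (((H0Iso (coind S.subtype A)).hom x : (coind S.subtype A).ρ.invariants) :
          (coind S.subtype A).V).1 1 := fun x =>
    LinearMap.congr_fun (ModuleCat.hom_ext_iff.mp
      (map_H0Iso_hom_f S.subtype (coindEv S A))) x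
  have hconst : ∀ (m : (coind S.subtype A).ρ.invariants) (g : G),
      (m : (coind S.subtype A).V).1 g = (m : (coind S.subtype A).V).1 1 := by
    intro m g
    have h := congrArg (fun f : (coind S.subtype A).V => f.1 1) (m.2 g)
    have h' : (m : (coind S.subtype A).V).1 (1 * g) = (m : (coind S.subtype A).V).1 1 := h
    rwa [one_mul] at h'
  constructor
  · intro x y hxy
    apply (ConcreteCategory.bijective_of_isIso (H0Iso (coind S.subtype A)).hom).1
    apply Subtype.ext
    apply Subtype.ext
    funext g
    rw [hconst, hconst _ g, ← key, ← key, hxy]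
  · intro y
    obtain ⟨a, ha⟩ : ∃ a : A.ρ.invariants, a = (H0Iso A).hom y := ⟨_, rfl⟩
    let m : (coind S.subtype A).ρ.invariants :=
      ⟨⟨fun _ => (a : A.V), fun s _ => (a.2 s).symm⟩, fun g => rfl⟩
    refine ⟨(H0Iso (coind S.subtype A)).inv m, ?_⟩
    apply (ConcreteCategory.bijective_of_isIso (H0Iso A).hom).1
    apply Subtype.ext
    rw [key, ← ha]
    have e : (H0Iso (coind S.subtype A)).hom ((H0Iso (coind S.subtype A)).inv m) = m :=
      (H0Iso (coind S.subtype A)).toLinearEquiv.apply_symm_apply m
    rw [e]

/-- **Explicit Shapiro, all degrees**: `[f] ↦ [f(·)(1)|_S]` is bijective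
`Hⁿ(G, Coind_S^G A) → Hⁿ(S, A)`. -/
theorem shapiroMap_bijective (n : ℕ) :
    ∀ A : Rep.{u} k S, Function.Bijective (shapiroMap S A n).hom := by
  induction n with
  | zero => exact shapiroMap_zero_bijective S
  | succ n ih =>
    intro A
    have hX := shiftSES_shortExact.{u} A
    have hY := coind_shortExact S hX
    have hzS : Limits.IsZero (groupCohomology (coindBot.{u} A) (n + 1)) := isZero_coindBot.{u} A n
    have iso : groupCohomology (coind S.subtype (coindBot.{u} A)) (n + 1) ≅
        groupCohomology (coindBot.{u} A) (n + 1) := groupCohomology.coindIso.{u} (coindBot.{u} A) (n + 1)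
    have hzG : Limits.IsZero (groupCohomology (coind S.subtype (coindBot.{u} A)) (n + 1)) :=
      hzS.of_iso iso
    have hδS : Function.Surjective (δ hX n (n + 1) rfl).hom :=
      (ModuleCat.epi_iff_surjective _).1 (epi_δ_of_isZero hX n hzS)
    have hδG : Function.Surjective (δ hY n (n + 1) rfl).hom :=
      (ModuleCat.epi_iff_surjective _).1 (epi_δ_of_isZero hY n hzG)
    have hsq : ∀ w, (shapiroMap S A (n + 1)).hom ((δ hY n (n + 1) rfl).hom w) =
        (δ hX n (n + 1) rfl).hom ((shapiroMap S (dimShift.{u} A) n).hom w) := fun w =>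
      LinearMap.congr_fun (ModuleCat.hom_ext_iff.mp (shapiro_δ S hX n (n + 1) rfl)) w
    have hnat : ∀ v, (shapiroMap S (dimShift.{u} A) n).hom
        ((map (MonoidHom.id G) (coindMap S.subtype (shiftSES.{u} A).g) n).hom v) =
        (map (MonoidHom.id S) (shiftSES.{u} A).g n).hom ((shapiroMap S (coindBot.{u} A) n).hom v) :=
      fun v => LinearMap.congr_fun (ModuleCat.hom_ext_iff.mp
        (shapiroMap_naturality S (shiftSES.{u} A).g n)) v
    constructor
    · rw [injective_iff_map_eq_zero]
      intro x hx
      obtain ⟨w, rfl⟩ := hδG x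
      rw [hsq] at hx
      obtain ⟨v, hv⟩ := (ShortComplex.moduleCat_exact_iff _).1
        (mapShortComplex₃_exact hX (i := n) (j := n + 1) rfl) _ hx
      obtain ⟨v', rfl⟩ := (ih (coindBot.{u} A)).2 v
      have hw : w = (map (MonoidHom.id G) (coindMap S.subtype (shiftSES.{u} A).g) n).hom v' :=
        (ih (dimShift.{u} A)).1 (by rw [hnat]; exact hv.symm)
      rw [hw]
      exact ShortComplex.moduleCat_zero_apply (mapShortComplex₃ hY (i := n) (j := n + 1) rfl) v'
    · intro z
      obtain ⟨w, rfl⟩ := hδS z
      obtain ⟨w', rfl⟩ := (ih (dimShift.{u} A)).2 w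
      exact ⟨_, hsq w'⟩

end Fermat.Agent.S55.H73
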