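/-
S55 (Poitou–Tate), package C1, TATE-3 (helper73): DEFINITIONS for the augmentation ideal, in the
plain `G →₀ ℤ` model (no `MonoidAlgebra` wrapper), shared by the splitting module (`H73`) and the
augmentation-ideal cohomology leaf.

* `regRep G`      : the regular representation of `G` on `G →₀ ℤ`, `σ • e_τ = e_{σ τ}`;
* `augMap G`      : the augmentation `(G →₀ ℤ) →ₗ[ℤ] ℤ`, `e_τ ↦ 1`;
* `augSub G`      : its kernel `I_G`, a `G`-stable submodule (`augSub_le_comap`);
* `regZ G`, `augIdeal G`, `trivZ G` : the representations `ℤ[G]`, `I_G`, `ℤ` as objects of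
  `Rep ℤ G`; `augIncl G : augIdeal G ⟶ regZ G`, `augHom G : regZ G ⟶ trivZ G`;
* `augSES G`      : `0 ⟶ I_G ⟶ ℤ[G] ⟶ ℤ ⟶ 0`, `augSES_shortExact`;
* `augGen G σ`    : the element `e_σ − e_1` of `I_G` (the values of the basic 1-cocycle);
* `AugH1Gen G`, `AugH2Zero G` : the two cohomological facts about `I_G` consumed by TATE-3, as
  Props (every 1-cocycle of a subgroup `S` with values in `I_G` is `m • (s ↦ e_s − e_1)` plus a
  coboundary; `H²(S, I_G) = 0` and `H²(G, I_G) = 0`).
-/
import Mathlib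
import Fermat.Agent.S55.H73.DimShiftInv

set_option autoImplicit false

open CategoryTheory groupCohomology Rep

namespace Fermat.Agent.S55.H73

variable (G : Type) [Group G]

/-- The regular representation of `G` on `G →₀ ℤ`: `σ • e_τ = e_{σ τ}`. -/
noncomputable def regRep : Representation ℤ G (G →₀ ℤ) where
  toFun σ := Finsupp.lmapDomain ℤ ℤ (σ * ·)
  map_one' := by
    ext τ : 2
    simp
  map_mul' σ₁ σ₂ := by
    ext τ : 2
    simp [mul_assoc]

@[simp]
theorem regRep_single (σ τ : G) (n : ℤ) :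
    regRep G σ (Finsupp.single τ n) = Finsupp.single (σ * τ) n := by
  simp [regRep]

/-- The augmentation `ℤ[G] → ℤ`, `e_τ ↦ 1`. -/
noncomputable def augMap : (G →₀ ℤ) →ₗ[ℤ] ℤ := Finsupp.linearCombination ℤ (fun _ : G => (1 : ℤ))

omit [Group G] in
@[simp]
theorem augMap_single (τ : G) (n : ℤ) : augMap G (Finsupp.single τ n) = n := by
  simp [augMap]

theorem augMap_regRep (σ : G) (f : G →₀ ℤ) : augMap G (regRep G σ f) = augMap G f := by
  induction f using Finsupp.induction_linear with
  | zero => simp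
  | add f g hf hg => rw [map_add, map_add, map_add, hf, hg]
  | single τ n => simp

/-- The augmentation ideal `I_G ⊆ ℤ[G]`. -/
noncomputable def augSub : Submodule ℤ (G →₀ ℤ) := LinearMap.ker (augMap G)

omit [Group G] in
theorem mem_augSub (f : G →₀ ℤ) : f ∈ augSub G ↔ augMap G f = 0 := LinearMap.mem_ker

theorem augSub_le_comap (σ : G) : augSub G ≤ (augSub G).comap (regRep G σ) := fun f hf => by
  rw [Submodule.mem_comap, mem_augSub, augMap_regRep]
  exact (mem_augSub G f).1 hf

/-- `ℤ[G]` as an object of `Rep ℤ G`. -/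
noncomputable abbrev regZ : Rep.{0} ℤ G := Rep.of (regRep G)

/-- `I_G` as an object of `Rep ℤ G`. -/
noncomputable abbrev augIdeal : Rep.{0} ℤ G :=
  Rep.of ((regRep G).subrepresentation (augSub G) (augSub_le_comap G))

/-- `ℤ` with the trivial action. -/
noncomputable abbrev trivZ : Rep.{0} ℤ G := Rep.trivial ℤ G ℤ

theorem augIdeal_ρ_coe (σ : G) (f : augSub G) :
    (((augIdeal G).ρ σ f : augSub G) : G →₀ ℤ) = regRep G σ (f : G →₀ ℤ) := rfl

/-- The inclusion `I_G ⟶ ℤ[G]`. -/
noncomputable def augIncl : augIdeal G ⟶ regZ G :=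
  Rep.ofHom ⟨(augSub G).subtype, fun _ => rfl⟩

/-- The augmentation `ℤ[G] ⟶ ℤ`. -/
noncomputable def augHom : regZ G ⟶ trivZ G :=
  Rep.ofHom ⟨augMap G, fun σ => by
    apply LinearMap.ext
    intro f
    exact augMap_regRep G σ f⟩

theorem augIncl_apply (f : augSub G) : (augIncl G).hom f = (f : G →₀ ℤ) := rfl

theorem augHom_apply (f : G →₀ ℤ) : (augHom G).hom f = augMap G f := rfl

/-- `0 ⟶ I_G ⟶ ℤ[G] ⟶ ℤ ⟶ 0`. -/
noncomputable def augSES : ShortComplex (Rep.{0} ℤ G) :=
  ShortComplex.mk (augIncl G) (augHom G) (by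
    apply Rep.hom_ext
    apply Representation.IntertwiningMap.ext
    apply LinearMap.ext
    intro f
    exact (mem_augSub G f.1).1 f.2)

theorem augSES_shortExact : (augSES G).ShortExact :=
  shortExact_of_elementwise (augSES G) (fun _ _ h => Subtype.ext h)
    (fun n => ⟨Finsupp.single 1 n, augMap_single G 1 n⟩)
    (fun f hf => ⟨⟨f, (mem_augSub G f).2 hf⟩, rfl⟩)

/-- The element `e_σ − e_1` of the augmentation ideal. -/
noncomputable def augGen (σ : G) : augSub G :=
  ⟨Finsupp.single σ 1 - Finsupp.single 1 1, by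
    rw [mem_augSub, map_sub, augMap_single, augMap_single, sub_self]⟩

@[simp]
theorem augGen_coe (σ : G) :
    ((augGen G σ : augSub G) : G →₀ ℤ) = Finsupp.single σ 1 - Finsupp.single 1 1 := rfl

/-- The basic 1-cocycle `σ ↦ e_σ − e_1` with values in `I_G`. -/
theorem augGen_mul (σ τ : G) :
    augGen G (σ * τ) = (augIdeal G).ρ σ (augGen G τ) + augGen G σ := by
  apply Subtype.ext
  rw [Submodule.coe_add, augIdeal_ρ_coe, augGen_coe, augGen_coe, augGen_coe, map_sub,
    regRep_single, regRep_single, mul_one]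
  abel

/-- **(AUG-1g)** as a Prop: for every subgroup `S ≤ G`, every 1-cocycle `S → I_G` is an integer
multiple of the basic cocycle `s ↦ e_s − e_1` plus a coboundary. -/
def AugH1Gen : Prop :=
  ∀ (S : Subgroup G) (c : S → augSub G),
    (∀ s t : S, c (s * t) = (augIdeal G).ρ (s : G) (c t) + c s) →
    ∃ (m : ℤ) (x : augSub G), ∀ s : S,
      c s = m • augGen G (s : G) + ((augIdeal G).ρ (s : G) x - x)

/-- **(AUG-2)** as a Prop: `H²(S, I_G) = 0` for every subgroup `S ≤ G`, and `H²(G, I_G) = 0`. -/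
def AugH2Zero : Prop :=
  (∀ S : Subgroup G, Limits.IsZero (groupCohomology (res S.subtype (augIdeal G)) 2)) ∧
    Limits.IsZero (groupCohomology (augIdeal G) 2)

end Fermat.Agent.S55.H73
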