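/-
S55 (Poitou–Tate), package C1 (finite-group cohomology tools, designer helper84), leaf C1-d
(helper73): dévissage from the cyclic layers of prime order to an arbitrary finite group.

This file proves the two C1-d statements from the STATEMENTS of the leaves C1-b (Sylow corollaries
of "`ker res` is killed by the index") and C1-c (inflation–restriction in degree 2), taken as
explicit hypotheses:

* `isZero_H1_of_prime_layers_of`        (degree 1; needs the C1-b vanishing corollary for `G`);
* `natCard_H2_dvd_card_of_prime_layers_of` (degree 2; needs the C1-b order corollary for `G` and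
  the elementwise exactness `InfResExactTwo k` of `H²(G/S, A^S) → H²(G, A) → H²(S, A)`).

Ingredients proved here (Mathlib only):
* `natCard_dvd_mul_of_exact`  : `#X₂ ∣ #X₁ · #X₃` for `X₁ → X₂ → X₃` exact in the middle;
* `resResIso`                 : `Hⁿ(N, A)` for `N ≤ H` seen inside `H`, versus its image in `G`;
* `exists_normal_of_card_eq_pow_succ` : a normal subgroup of index `p` in a group of order
  `p ^ (m + 1)`;
* `isZero_H1_res_of_card_eq_pow`, `natCard_H2_res_dvd_of_card_eq_pow` : the induction over the
  `p`-subgroups of `G`.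
-/
import Mathlib

set_option autoImplicit false

universe u

open CategoryTheory groupCohomology Rep

namespace Fermat.Agent.S55.H73

/-! ### An exact sequence bounds the order of its middle term -/

/-- If `X₁ → X₂ → X₃` is exact at `X₂` (elementwise) and `X₁`, `X₃` are finite, then
`#X₂ ∣ #X₁ · #X₃`. -/
theorem natCard_dvd_mul_of_exact {R : Type*} [Ring R] {X₁ X₂ X₃ : Type*} [AddCommGroup X₁]
    [AddCommGroup X₂] [AddCommGroup X₃] [Module R X₁] [Module R X₂] [Module R X₃]
    (f : X₁ →ₗ[R] X₂) (g : X₂ →ₗ[R] X₃) (hex : ∀ x, g x = 0 → ∃ y, f y = x) :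
    Nat.card X₂ ∣ Nat.card X₁ * Nat.card X₃ := by
  set K : AddSubgroup X₂ := g.toAddMonoidHom.ker with hK
  have h1 : Nat.card X₂ = Nat.card (X₂ ⧸ K) * Nat.card K :=
    AddSubgroup.card_eq_card_quotient_mul_card_addSubgroup K
  have h2 : Nat.card (X₂ ⧸ K) ∣ Nat.card X₃ := by
    rw [Nat.card_congr (QuotientAddGroup.quotientKerEquivRange g.toAddMonoidHom).toEquiv]
    exact AddSubgroup.card_addSubgroup_dvd_card _
  have h3 : Nat.card K ∣ Nat.card X₁ := by
    set C : AddSubgroup X₁ := K.comap f.toAddMonoidHom with hC
    let φ : C →+ K :=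
      { toFun := fun y => ⟨f y.1, y.2⟩
        map_zero' := Subtype.ext (map_zero f)
        map_add' := fun a b => Subtype.ext (map_add f a.1 b.1) }
    have hφ : Function.Surjective φ := by
      rintro ⟨x, hx⟩
      obtain ⟨y, hy⟩ := hex x hx
      exact ⟨⟨y, by rw [hC, AddSubgroup.mem_comap]; exact (show f y ∈ K from hy ▸ hx)⟩,
        Subtype.ext hy⟩
    exact (AddSubgroup.card_dvd_of_surjective φ hφ).trans (AddSubgroup.card_addSubgroup_dvd_card C)
  rw [h1, mul_comm (Nat.card X₁)]
  exact mul_dvd_mul h2 h3

/-- `natCard_dvd_mul_of_exact` for morphisms of `ModuleCat`. -/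
theorem natCard_dvd_mul_of_exact_moduleCat {R : Type u} [Ring R] {X₁ X₂ X₃ : ModuleCat.{u} R}
    (f : X₁ ⟶ X₂) (g : X₂ ⟶ X₃) (hex : ∀ x : X₂, g.hom x = 0 → ∃ y : X₁, f.hom y = x) :
    Nat.card X₂ ∣ Nat.card X₁ * Nat.card X₃ :=
  natCard_dvd_mul_of_exact f.hom g.hom hex

variable {k G : Type u} [CommRing k] [Group G]

/-! ### Transport between `N ≤ H` and its image in `G` -/

/-- For `N ≤ H ≤ G`: the cohomology of `N` (as a subgroup of `H`) with coefficients in the
restriction of `A`, versus the cohomology of the image of `N` in `G`. -/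
noncomputable def resResIso (A : Rep k G) (H : Subgroup G) (N : Subgroup H) (n : ℕ) :
    groupCohomology (res N.subtype (res H.subtype A)) n ≅
      groupCohomology (res (N.map H.subtype).subtype A) n :=
  mapIso (N.equivMapOfInjective H.subtype H.subtype_injective) (LinearEquiv.refl k _)
    (fun _ => rfl) n

theorem natCard_resRes (A : Rep k G) (H : Subgroup G) (N : Subgroup H) (n : ℕ) :
    Nat.card (groupCohomology (res N.subtype (res H.subtype A)) n) =
      Nat.card (groupCohomology (res (N.map H.subtype).subtype A) n) :=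
  Nat.card_congr (resResIso A H N n).toLinearEquiv.toEquiv

theorem isZero_resRes (A : Rep k G) (H : Subgroup G) (N : Subgroup H) (n : ℕ)
    (h : Limits.IsZero (groupCohomology (res (N.map H.subtype).subtype A) n)) :
    Limits.IsZero (groupCohomology (res N.subtype (res H.subtype A)) n) :=
  h.of_iso (resResIso A H N n)

/-! ### `p`-groups have a normal subgroup of index `p` -/

/-- A group of order `p ^ (m + 1)` has a normal subgroup of order `p ^ m`, of prime index. -/
theorem exists_normal_of_card_eq_pow_succ (H : Type*) [Group H] [Finite H] (p : ℕ)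
    [Fact p.Prime] (m : ℕ) (hH : Nat.card H = p ^ (m + 1)) :
    ∃ N : Subgroup H, N.Normal ∧ Nat.card N = p ^ m ∧ Nat.card (H ⧸ N) = p := by
  have hp : p.Prime := Fact.out
  obtain ⟨N, hN⟩ := Sylow.exists_subgroup_card_pow_prime (G := H) p (n := m)
    (by rw [hH]; exact pow_dvd_pow p (Nat.le_succ m))
  have hidx : N.index = p := by
    have h1 := N.card_mul_index
    rw [hN, hH, pow_succ] at h1
    exact Nat.eq_of_mul_eq_mul_left (pow_pos hp.pos m) h1
  have hnorm : N.Normal := by
    apply Subgroup.normal_of_index_eq_minFac_card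
    rw [hidx, hH, Nat.pow_minFac (Nat.succ_ne_zero m), hp.minFac_eq]
  exact ⟨N, hnorm, hN, by rw [← Subgroup.index_eq_card, hidx]⟩

/-! ### The hypotheses coming from C1-c -/

/-- Elementwise exactness of `H²(G ⧸ S, A^S) ⟶ H²(G, A) ⟶ H²(S, A)` whenever `H¹(S, A) = 0`
(= leaf C1-c, `H2InfRes_exact`, in elementwise form). -/
def InfResExactTwo (k : Type u) [CommRing k] : Prop :=
  ∀ (G : Type u) [Group G] (A : Rep k G) (S : Subgroup G) [S.Normal],
    Limits.IsZero (groupCohomology (res S.subtype A) 1) →
    ∀ x : groupCohomology A 2, (map S.subtype (𝟙 (res S.subtype A)) 2).hom x = 0 →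
      ∃ y : groupCohomology (A.quotientToInvariants S) 2,
        (map (QuotientGroup.mk' S) (ofHom <| A.ρ.quotientToInvariants_lift S) 2).hom y = x

/-! ### Induction over the `p`-subgroups -/

/-- Degree 1: if `H¹` of every prime layer vanishes, then `H¹(H, A) = 0` for every `p`-subgroup
`H ≤ G`. -/
theorem isZero_H1_res_of_card_eq_pow [Finite G] (A : Rep k G)
    (h : ∀ (H : Subgroup G) (N : Subgroup H) [N.Normal], (Nat.card (H ⧸ N)).Prime →
      Limits.IsZero (groupCohomology ((res H.subtype A).quotientToInvariants N) 1))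
    (p : ℕ) [Fact p.Prime] :
    ∀ (m : ℕ) (H : Subgroup G), Nat.card H = p ^ m →
      Limits.IsZero (groupCohomology (res H.subtype A) 1) := by
  have hp : p.Prime := Fact.out
  intro m
  induction m with
  | zero =>
    intro H hH
    rw [pow_zero] at hH
    have : Subsingleton H := (Nat.card_eq_one_iff_unique.mp hH).1
    exact isZero_groupCohomology_succ_of_subsingleton _ 0
  | succ m ih =>
    intro H hH
    obtain ⟨N, hnorm, hN, hprime⟩ := exists_normal_of_card_eq_pow_succ H p m hH
    have := hnorm
    have h1 := h H N (hprime ▸ hp)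
    have h3 := isZero_resRes A H N 1
      (ih (N.map H.subtype) (by rw [Subgroup.card_map_of_injective H.subtype_injective, hN]))
    exact (H1InfRes_exact (res H.subtype A) N).isZero_of_both_isZero h1 h3

/-- Degree 2: if `H¹(H, A) = 0` for all `H ≤ G` and `#H²` of every prime layer divides its order,
then `#H²(H, A) ∣ #H` for every `p`-subgroup `H ≤ G`. -/
theorem natCard_H2_res_dvd_of_card_eq_pow [Finite G] (A : Rep k G) (hc : InfResExactTwo k)
    (h1 : ∀ H : Subgroup G, Limits.IsZero (groupCohomology (res H.subtype A) 1))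
    (h2 : ∀ (H : Subgroup G) (N : Subgroup H) [N.Normal], (Nat.card (H ⧸ N)).Prime →
      Nat.card (groupCohomology ((res H.subtype A).quotientToInvariants N) 2) ∣
        Nat.card (H ⧸ N))
    (p : ℕ) [Fact p.Prime] :
    ∀ (m : ℕ) (H : Subgroup G), Nat.card H = p ^ m →
      Nat.card (groupCohomology (res H.subtype A) 2) ∣ Nat.card H := by
  have hp : p.Prime := Fact.out
  intro m
  induction m with
  | zero =>
    intro H hH
    rw [pow_zero] at hH
    have : Subsingleton H := (Nat.card_eq_one_iff_unique.mp hH).1
    have : Subsingleton (groupCohomology (res H.subtype A) 2) :=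
      ModuleCat.subsingleton_of_isZero (isZero_groupCohomology_succ_of_subsingleton _ 1)
    rw [Nat.card_of_subsingleton (0 : groupCohomology (res H.subtype A) 2)]
    exact one_dvd _
  | succ m ih =>
    intro H hH
    obtain ⟨N, hnorm, hN, hprime⟩ := exists_normal_of_card_eq_pow_succ H p m hH
    have := hnorm
    have hcardN : Nat.card (N.map H.subtype) = p ^ m := by
      rw [Subgroup.card_map_of_injective H.subtype_injective, hN]
    -- the three terms
    have hX1 : Nat.card (groupCohomology ((res H.subtype A).quotientToInvariants N) 2) ∣ p :=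
      hprime ▸ h2 H N (hprime ▸ hp)
    have hX3 : Nat.card (groupCohomology (res N.subtype (res H.subtype A)) 2) ∣ p ^ m := by
      rw [natCard_resRes]
      exact hcardN ▸ ih (N.map H.subtype) hcardN
    have hex := hc H (res H.subtype A) N (isZero_resRes A H N 1 (h1 (N.map H.subtype)))
    have key := natCard_dvd_mul_of_exact_moduleCat _ _ hex
    rw [hH, pow_succ, mul_comm]
    exact key.trans (mul_dvd_mul hX1 hX3)

/-! ### The two C1-d statements, conditionally on C1-b and C1-c -/

/-- **C1-d (degree 1)**, from the C1-b Sylow vanishing corollary for `G` (hypothesis `hb`). -/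
theorem isZero_H1_of_prime_layers_of [Finite G] (A : Rep k G)
    (hb : (∀ p : ℕ, p.Prime → ∃ S : Subgroup G, ¬ p ∣ S.index ∧
        Limits.IsZero (groupCohomology (res S.subtype A) 1)) →
      Limits.IsZero (groupCohomology A 1))
    (h : ∀ (H : Subgroup G) (N : Subgroup H) [N.Normal], (Nat.card (H ⧸ N)).Prime →
      Limits.IsZero (groupCohomology ((res H.subtype A).quotientToInvariants N) 1)) :
    Limits.IsZero (groupCohomology A 1) := by
  refine hb fun p hp => ?_
  have : Fact p.Prime := ⟨hp⟩
  obtain ⟨P⟩ : Nonempty (Sylow p G) := inferInstance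
  exact ⟨P.toSubgroup, P.not_dvd_index,
    isZero_H1_res_of_card_eq_pow A h p _ P.toSubgroup P.card_eq_multiplicity⟩

/-- **C1-d (degree 2)**, from the C1-b Sylow order corollary for `G` (hypothesis `hb`) and the
degree-2 inflation–restriction exactness C1-c (hypothesis `hc`). -/
theorem natCard_H2_dvd_card_of_prime_layers_of [Finite G] (A : Rep k G)
    (hb : (∀ p : ℕ, p.Prime → ∃ S : Subgroup G, ¬ p ∣ S.index ∧
        Nat.card (groupCohomology (res S.subtype A) 2) ∣ Nat.card S) →
      Nat.card (groupCohomology A 2) ∣ Nat.card G)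
    (hc : InfResExactTwo k)
    (h1 : ∀ H : Subgroup G, Limits.IsZero (groupCohomology (res H.subtype A) 1))
    (h2 : ∀ (H : Subgroup G) (N : Subgroup H) [N.Normal], (Nat.card (H ⧸ N)).Prime →
      Nat.card (groupCohomology ((res H.subtype A).quotientToInvariants N) 2) ∣
        Nat.card (H ⧸ N)) :
    Nat.card (groupCohomology A 2) ∣ Nat.card G := by
  refine hb fun p hp => ?_
  have : Fact p.Prime := ⟨hp⟩
  obtain ⟨P⟩ : Nonempty (Sylow p G) := inferInstance
  exact ⟨P.toSubgroup, P.not_dvd_index,
    natCard_H2_res_dvd_of_card_eq_pow A hc h1 h2 p _ P.toSubgroup P.card_eq_multiplicity⟩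

end Fermat.Agent.S55.H73
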