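/-
S55 (Poitou–Tate), group cohomology tools (helper73): SHAPIRO, FLEXIBLE FORM, ALL DEGREES.

`ψ : Δ →* Γ` an injective homomorphism, `M` a representation of `Γ`, `B` a representation of `Δ`
and `e : Res_ψ M ⟶ B` a morphism such that

* (`hsep`)  `m = 0` as soon as `e (γ • m) = 0` for all `γ`;
* (`hglue`) every `f : Γ → B` with `f (ψ δ * γ) = δ • f γ` is of the form `γ ↦ e (γ • m)`

(i.e. `M` "is" the module coinduced from `B` along `ψ`, with `e` the evaluation at `1`).  Then

  `groupCohomology.map ψ e n : Hⁿ(Γ, M) ⟶ Hⁿ(Δ, B)`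

is bijective for every `n` (`map_bijective_of_sep_glue`).  Reduction to `H73.shapiroMap_bijective`
(subgroup form) by transport along `Δ ≃ ψ.range`.
-/
import Mathlib
import Fermat.Agent.S55.H73.ShapiroCore

set_option autoImplicit false

universe u

open CategoryTheory groupCohomology Rep

namespace Fermat.Agent.S55.H73

section Flex

variable {k Γ Δ : Type u} [CommRing k] [Group Γ] [Group Δ]
  (ψ : Δ →* Γ) (hψ : Function.Injective ψ) (M : Rep.{u} k Γ) (B : Rep.{u} k Δ)
  (e : res ψ M ⟶ B)

theorem flex_psi_symm (s : ψ.range) : ψ ((MonoidHom.ofInjective hψ).symm s) = (s : Γ) :=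
  congrArg Subtype.val ((MonoidHom.ofInjective hψ).apply_symm_apply s)

/-- `B` as a representation of the image of `ψ`. -/
noncomputable abbrev flexRep : Rep.{u} k ψ.range :=
  res (MonoidHom.ofInjective hψ).symm.toMonoidHom B

theorem flex_comm (δ : Δ) (x : M.V) : e.hom (M.ρ (ψ δ) x) = B.ρ δ (e.hom x) :=
  hom_comm_apply e δ x

/-- `m ↦ (γ ↦ e (γ • m))`, a morphism `M ⟶ Coind B`. -/
noncomputable def flexHom : M ⟶ coind ψ.range.subtype (flexRep ψ hψ B) :=
  Rep.ofHom ⟨{ toFun := fun m => ⟨fun γ => e.hom (M.ρ γ m), fun s γ => by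
                  show e.hom (M.ρ ((s : Γ) * γ) m) =
                    B.ρ ((MonoidHom.ofInjective hψ).symm s) (e.hom (M.ρ γ m))
                  rw [← flex_comm ψ M B e, flex_psi_symm ψ hψ s, map_mul]
                  rfl⟩
               map_add' := fun m m' => Subtype.ext (funext fun γ => by
                  show e.hom (M.ρ γ (m + m')) = e.hom (M.ρ γ m) + e.hom (M.ρ γ m')
                  rw [map_add, map_add])
               map_smul' := fun c m => Subtype.ext (funext fun γ => by
                  show e.hom (M.ρ γ (c • m)) = c • e.hom (M.ρ γ m)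
                  rw [map_smul, map_smul]) }, fun g => LinearMap.ext fun m =>
    Subtype.ext (funext fun γ => by
      show e.hom (M.ρ γ (M.ρ g m)) = e.hom (M.ρ (γ * g) m)
      rw [map_mul]
      rfl)⟩

theorem flexHom_apply (m : M.V) (γ : Γ) :
    ((flexHom ψ hψ M B e).hom m).1 γ = e.hom (M.ρ γ m) := rfl

theorem flexHom_bijective
    (hsep : ∀ m : M.V, (∀ γ : Γ, e.hom (M.ρ γ m) = 0) → m = 0)
    (hglue : ∀ f : Γ → B.V, (∀ (δ : Δ) (γ : Γ), f (ψ δ * γ) = B.ρ δ (f γ)) →
      ∃ m : M.V, ∀ γ : Γ, e.hom (M.ρ γ m) = f γ) :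
    Function.Bijective (flexHom ψ hψ M B e).hom := by
  constructor
  · rw [injective_iff_map_eq_zero]
    intro m hm
    refine hsep m fun γ => ?_
    have h := congrArg (fun F : (coind ψ.range.subtype (flexRep ψ hψ B)).V => F.1 γ) hm
    exact h
  · intro F
    obtain ⟨m, hm⟩ := hglue F.1 (fun δ γ => by
      have h := F.2 (MonoidHom.ofInjective hψ δ) γ
      have h' : F.1 (ψ δ * γ) =
          B.ρ ((MonoidHom.ofInjective hψ).symm (MonoidHom.ofInjective hψ δ)) (F.1 γ) := h
      rw [h', MulEquiv.symm_apply_apply])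
    exact ⟨m, Subtype.ext (funext hm)⟩

/-- The identity of `B`, as a morphism from the restriction of `flexRep` along `Δ ≃ ψ.range`. -/
noncomputable def flexBack :
    res (MonoidHom.ofInjective hψ).toMonoidHom (flexRep ψ hψ B) ⟶ B :=
  Rep.ofHom ⟨LinearMap.id, fun δ => LinearMap.ext fun b => by
    show B.ρ ((MonoidHom.ofInjective hψ).symm (MonoidHom.ofInjective hψ δ)) b = B.ρ δ b
    rw [MulEquiv.symm_apply_apply]⟩

/-- The inverse direction: the identity of `B`, `Res B ⟶ flexRep`. -/
noncomputable def flexForth :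
    res (MonoidHom.ofInjective hψ).symm.toMonoidHom B ⟶ flexRep ψ hψ B := 𝟙 _

theorem flexBack_cochains_comp :
    cochainsMap (MonoidHom.ofInjective hψ).toMonoidHom (flexBack ψ hψ B) ≫
      cochainsMap (MonoidHom.ofInjective hψ).symm.toMonoidHom (flexForth ψ hψ B) = 𝟙 _ := by
  ext n : 1
  refine ModuleCat.hom_ext (LinearMap.ext fun c => funext fun x => ?_)
  show c (fun i => MonoidHom.ofInjective hψ ((MonoidHom.ofInjective hψ).symm (x i))) = c x
  congr 1
  funext i
  exact MulEquiv.apply_symm_apply _ _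

theorem flexForth_cochains_comp :
    cochainsMap (MonoidHom.ofInjective hψ).symm.toMonoidHom (flexForth ψ hψ B) ≫
      cochainsMap (MonoidHom.ofInjective hψ).toMonoidHom (flexBack ψ hψ B) = 𝟙 _ := by
  ext n : 1
  refine ModuleCat.hom_ext (LinearMap.ext fun c => funext fun x => ?_)
  show c (fun i => (MonoidHom.ofInjective hψ).symm (MonoidHom.ofInjective hψ (x i))) = c x
  congr 1
  funext i
  exact MulEquiv.symm_apply_apply _ _

theorem flexBack_map_bijective (n : ℕ) :
    Function.Bijective
      (groupCohomology.map (MonoidHom.ofInjective hψ).toMonoidHom (flexBack ψ hψ B) n).hom := by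
  have h1 : groupCohomology.map (MonoidHom.ofInjective hψ).toMonoidHom (flexBack ψ hψ B) n ≫
      groupCohomology.map (MonoidHom.ofInjective hψ).symm.toMonoidHom (flexForth ψ hψ B) n =
        𝟙 _ := by
    show HomologicalComplex.homologyMap _ n ≫ HomologicalComplex.homologyMap _ n = 𝟙 _
    rw [← HomologicalComplex.homologyMap_comp, flexBack_cochains_comp,
      HomologicalComplex.homologyMap_id]
  have h2 : groupCohomology.map (MonoidHom.ofInjective hψ).symm.toMonoidHom (flexForth ψ hψ B) n ≫
      groupCohomology.map (MonoidHom.ofInjective hψ).toMonoidHom (flexBack ψ hψ B) n =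
        𝟙 _ := by
    show HomologicalComplex.homologyMap _ n ≫ HomologicalComplex.homologyMap _ n = 𝟙 _
    rw [← HomologicalComplex.homologyMap_comp, flexForth_cochains_comp,
      HomologicalComplex.homologyMap_id]
  have : IsIso (groupCohomology.map (MonoidHom.ofInjective hψ).toMonoidHom
      (flexBack ψ hψ B) n) := ⟨⟨_, h1, h2⟩⟩
  exact ConcreteCategory.bijective_of_isIso _

/-- The decomposition of `cochainsMap ψ e` through the subgroup Shapiro map. -/
theorem flex_cochains_decomp :
    cochainsMap ψ e =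
      cochainsMap (MonoidHom.id Γ) (flexHom ψ hψ M B e) ≫
        cochainsMap ψ.range.subtype (coindEv ψ.range (flexRep ψ hψ B)) ≫
          cochainsMap (MonoidHom.ofInjective hψ).toMonoidHom (flexBack ψ hψ B) := by
  ext n : 1
  refine ModuleCat.hom_ext (LinearMap.ext fun c => funext fun x => ?_)
  show e.hom (c (fun i => ψ (x i))) = e.hom (M.ρ 1 (c (fun i => ψ (x i))))
  rw [map_one]
  rfl

include hψ in
/-- **Shapiro, flexible form, all degrees.** -/
theorem map_bijective_of_sep_glue
    (hsep : ∀ m : M.V, (∀ γ : Γ, e.hom (M.ρ γ m) = 0) → m = 0)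
    (hglue : ∀ f : Γ → B.V, (∀ (δ : Δ) (γ : Γ), f (ψ δ * γ) = B.ρ δ (f γ)) →
      ∃ m : M.V, ∀ γ : Γ, e.hom (M.ρ γ m) = f γ) (n : ℕ) :
    Function.Bijective (groupCohomology.map ψ e n).hom := by
  have hdec : groupCohomology.map ψ e n =
      groupCohomology.map (MonoidHom.id Γ) (flexHom ψ hψ M B e) n ≫
        shapiroMap ψ.range (flexRep ψ hψ B) n ≫
          groupCohomology.map (MonoidHom.ofInjective hψ).toMonoidHom (flexBack ψ hψ B) n := by
    show HomologicalComplex.homologyMap _ n =
      HomologicalComplex.homologyMap _ n ≫ HomologicalComplex.homologyMap _ n ≫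
        HomologicalComplex.homologyMap _ n
    rw [← HomologicalComplex.homologyMap_comp, ← HomologicalComplex.homologyMap_comp,
      ← flex_cochains_decomp]
  have hΘ : IsIso (flexHom ψ hψ M B e) := by
    have : IsIso ((forget (Rep.{u} k Γ)).map (flexHom ψ hψ M B e)) :=
      (isIso_iff_bijective _).2 (flexHom_bijective ψ hψ M B e hsep hglue)
    exact isIso_of_reflects_iso _ (forget (Rep.{u} k Γ))
  have h1 : Function.Bijective
      (groupCohomology.map (MonoidHom.id Γ) (flexHom ψ hψ M B e) n).hom := by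
    have : IsIso ((groupCohomology.functor k Γ n).map (flexHom ψ hψ M B e)) := inferInstance
    exact ConcreteCategory.bijective_of_isIso
      ((groupCohomology.functor k Γ n).map (flexHom ψ hψ M B e))
  have h2 := shapiroMap_bijective ψ.range n (flexRep ψ hψ B)
  have h3 := flexBack_map_bijective ψ hψ B n
  rw [hdec]
  exact h3.comp (h2.comp h1)

end Flex

end Fermat.Agent.S55.H73
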