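/-
S55 / Program C, package (SH) (helper73, BACKUP route, all degrees): Shapiro's lemma for
level-constant cohomology.

`shInj n : H99.ShInjStatement n` and `shSurj n : H99.ShSurjStatement n` for EVERY `n`
(the hypothesis `ContainsLevel` is not used).

Route: for a normal subgroup `U` of `G`, the `G ⧸ U`-module `(Coind_H^G B)^U` is coinduced from the
`H ⧸ (U ⊓ H)`-module `B^(U ⊓ H)` along the injective map `H ⧸ (U ⊓ H) → G ⧸ U`, so the explicit
finite-level Shapiro map `flSh` is bijective in all degrees (`H73.map_bijective_of_sep_glue`,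
dimension shifting).  It commutes with inflation to the level-constant cohomology and with the
transition maps of helper74's finite-level description (`H74.inflH`, `H74.inflQ`); (FL1) and (FL2)
then give injectivity and surjectivity of `H99.sh`.
-/
import Mathlib
import Fermat.Agent.S55.H73.ShapiroFlex
import Fermat.Agent.S55.H99.ShapiroDefs
import Fermat.Agent.S55.H74.FiniteLevelH

set_option autoImplicit false

open CategoryTheory groupCohomology

namespace Fermat.Agent.S55.H73

open Fermat.Agent.S55.H49 Fermat.Agent.S55.H74 Fermat.Agent.S55.H99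

variable {G : Type} [Group G] {k : Type} [CommRing k]

section FiniteLevel

variable (H : Subgroup G) (B : Rep.{0} k H) (U : Subgroup G) [U.Normal]

/-- `H ⧸ (U ⊓ H) → G ⧸ U`. -/
noncomputable def flQuot : H ⧸ U.subgroupOf H →* G ⧸ U :=
  QuotientGroup.map (U.subgroupOf H) U H.subtype fun _ hx => hx

theorem flQuot_mk (x : H) : flQuot H U (x : H ⧸ U.subgroupOf H) = ((x : G) : G ⧸ U) := rfl

theorem flQuot_injective : Function.Injective (flQuot H U) := by
  rw [injective_iff_map_eq_one]
  intro x
  induction x using QuotientGroup.induction_on with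
  | H x =>
    intro hx
    rw [flQuot_mk, QuotientGroup.eq_one_iff] at hx
    exact (QuotientGroup.eq_one_iff x).2 hx

/-- Evaluation at `1`: `(Coind_H^G B)^U → B^(U ⊓ H)`. -/
noncomputable def flEv :
    Rep.res (flQuot H U) ((Rep.coind H.subtype B).quotientToInvariants U) ⟶
      B.quotientToInvariants (U.subgroupOf H) :=
  Rep.ofHom ⟨{ toFun := fun f => ⟨f.1.1 1, fun v => by
                  show B.ρ (v : H) (f.1.1 1) = f.1.1 1
                  have h1 := f.1.2 (v : H) 1
                  have h2 := congrArg (fun F : (Rep.coind H.subtype B).V => F.1 1)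
                    (f.2 ⟨((v : H) : G), v.2⟩)
                  have h2' : f.1.1 (1 * ((v : H) : G)) = f.1.1 1 := h2
                  rw [one_mul] at h2'
                  rw [← h1]
                  show f.1.1 (((v : H) : G) * 1) = f.1.1 1
                  rw [mul_one, h2']⟩
               map_add' := fun _ _ => rfl
               map_smul' := fun _ _ => rfl }, fun δ => by
    induction δ using QuotientGroup.induction_on with
    | H x =>
      refine LinearMap.ext fun f => Subtype.ext ?_
      show f.1.1 (1 * (x : G)) = B.ρ x (f.1.1 1)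
      have h1 := f.1.2 x 1
      rw [one_mul, ← h1]
      show f.1.1 (x : G) = f.1.1 ((x : G) * 1)
      rw [mul_one]⟩

theorem flEv_apply (f : ((Rep.coind H.subtype B).quotientToInvariants U).V) :
    ((flEv H B U).hom f).1 = f.1.1 1 := rfl

/-- The finite-level Shapiro map `Hⁿ(G ⧸ U, (Coind B)^U) → Hⁿ(H ⧸ (U ⊓ H), B^(U ⊓ H))`. -/
noncomputable def flSh (n : ℕ) :
    groupCohomology ((Rep.coind H.subtype B).quotientToInvariants U) n →ₗ[k]
      groupCohomology (B.quotientToInvariants (U.subgroupOf H)) n :=
  (groupCohomology.map (flQuot H U) (flEv H B U) n).hom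

theorem flSh_bijective (n : ℕ) : Function.Bijective (flSh H B U n) := by
  refine map_bijective_of_sep_glue (flQuot H U) (flQuot_injective H U) _ _ (flEv H B U) ?_ ?_ n
  · intro m hm
    apply Subtype.ext
    apply Subtype.ext
    funext g
    have h := congrArg Subtype.val (hm (g : G ⧸ U))
    have h' : m.1.1 (1 * g) = 0 := h
    rw [one_mul] at h'
    exact h'
  · intro f hf
    have hcoind : ∀ (x : H) (g : G), (f ((x : G) * g : G)).1 = B.ρ x (f (g : G ⧸ U)).1 := by
      intro x g
      have h := congrArg Subtype.val (hf (x : H ⧸ U.subgroupOf H) (g : G ⧸ U))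
      exact h
    have hinv : ∀ (u : U) (g : G), (f ((g * (u : G) : G) : G ⧸ U)).1 = (f (g : G ⧸ U)).1 := by
      intro u g
      rw [QuotientGroup.mk_mul_of_mem g u.2]
    refine ⟨⟨⟨fun g => (f (g : G ⧸ U)).1, fun x g => hcoind x g⟩, fun u =>
      Subtype.ext (funext fun g => hinv u g)⟩, fun γ => ?_⟩
    induction γ using QuotientGroup.induction_on with
    | H g =>
      apply Subtype.ext
      show (f ((1 * g : G) : G ⧸ U)).1 = (f (g : G ⧸ U)).1
      rw [one_mul]

end FiniteLevel

section Squares

variable {D : LevelDatum G} {H : Subgroup G} {D' : LevelDatum H}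

/-- The trace on `H` of an "open" normal subgroup of `G` is "open" for the restricted datum. -/
theorem isOpenN_subgroupOf (h : IsRestrict D H D') {U : Subgroup G} (hU : IsOpenN D U) :
    IsOpenN D' (U.subgroupOf H) := by
  obtain ⟨F, hF, hN, hle⟩ := hU
  refine ⟨F, (h.lev_iff F).2 hF, hN, fun x hx => ?_⟩
  have hx' : D'.r x ∈ F.fixingSubgroup := hx
  rw [h.r_eq] at hx'
  exact hle hx'

theorem subgroupOf_le_sub (h : IsRestrict D H D') {U : Subgroup G}
    {F : IntermediateField ℚ (AlgebraicClosure ℚ)} (hle : U ≤ D.sub F) :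
    U.subgroupOf H ≤ D'.sub F := by
  intro x hx
  have hx' : D.r (x : G) ∈ F.fixingSubgroup := hle hx
  rw [← h.r_eq] at hx'
  exact hx'

/-- The Shapiro map commutes with inflation from a finite level (cochain level). -/
theorem inflLc_comp_shCo (h : IsRestrict D H D') (B : Rep.{0} k H) (U : Subgroup G) [U.Normal]
    (hU : IsOpenN D U) :
    inflLc D (Rep.coind H.subtype B) U hU ≫ shCo h B =
      cochainsMap (flQuot H U) (flEv H B U) ≫
        inflLc D' B (U.subgroupOf H) (isOpenN_subgroupOf h hU) := by
  ext n : 1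
  refine ModuleCat.hom_ext (LinearMap.ext fun c => Subtype.ext ?_)
  rfl

/-- The Shapiro map commutes with inflation from a finite level. -/
theorem sh_inflH (h : IsRestrict D H D') (B : Rep.{0} k H) (U : Subgroup G) [U.Normal]
    (hU : IsOpenN D U) (n : ℕ)
    (y : groupCohomology ((Rep.coind H.subtype B).quotientToInvariants U) n) :
    sh h B n (inflH D (Rep.coind H.subtype B) U hU n y) =
      inflH D' B (U.subgroupOf H) (isOpenN_subgroupOf h hU) n (flSh H B U n y) := by
  have e := congrArg (fun φ => HomologicalComplex.homologyMap φ n) (inflLc_comp_shCo h B U hU)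
  simp only [HomologicalComplex.homologyMap_comp] at e
  exact LinearMap.congr_fun (ModuleCat.hom_ext_iff.mp e) y

theorem flQuot_comp (H : Subgroup G) (U' U : Subgroup G) [U'.Normal] [U.Normal] (hle : U' ≤ U)
    (x : H ⧸ U'.subgroupOf H) :
    QuotientGroup.map U' U (MonoidHom.id G) hle (flQuot H U' x) =
      flQuot H U (QuotientGroup.map (U'.subgroupOf H) (U.subgroupOf H) (MonoidHom.id H)
        (fun _ hz => hle hz) x) := by
  induction x using QuotientGroup.induction_on with
  | H x => rfl

/-- The finite-level Shapiro maps commute with the transition maps (cochain level). -/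
theorem inflQCo_comp_flSh (H : Subgroup G) (B : Rep.{0} k H) (U' U : Subgroup G) [U'.Normal]
    [U.Normal] (hle : U' ≤ U) :
    inflQCo (Rep.coind H.subtype B) U' U hle ≫ cochainsMap (flQuot H U') (flEv H B U') =
      cochainsMap (flQuot H U) (flEv H B U) ≫
        inflQCo B (U'.subgroupOf H) (U.subgroupOf H) (fun _ hz => hle hz) := by
  ext n : 1
  refine ModuleCat.hom_ext (LinearMap.ext fun c => funext fun x => Subtype.ext ?_)
  show (c (fun i => QuotientGroup.map U' U (MonoidHom.id G) hle (flQuot H U' (x i)))).1.1 1 =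
    (c (fun i => flQuot H U (QuotientGroup.map (U'.subgroupOf H) (U.subgroupOf H)
      (MonoidHom.id H) (fun _ hz => hle hz) (x i)))).1.1 1
  rw [funext fun i => flQuot_comp H U' U hle (x i)]

/-- The finite-level Shapiro maps commute with the transition maps. -/
theorem flSh_inflQ (H : Subgroup G) (B : Rep.{0} k H) (U' U : Subgroup G) [U'.Normal]
    [U.Normal] (hle : U' ≤ U) (n : ℕ)
    (y : groupCohomology ((Rep.coind H.subtype B).quotientToInvariants U) n) :
    flSh H B U' n (inflQ (Rep.coind H.subtype B) U' U hle n y) =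
      inflQ B (U'.subgroupOf H) (U.subgroupOf H) (fun _ hz => hle hz) n (flSh H B U n y) := by
  have e := congrArg (fun φ => HomologicalComplex.homologyMap φ n)
    (inflQCo_comp_flSh H B U' U hle)
  simp only [HomologicalComplex.homologyMap_comp] at e
  exact LinearMap.congr_fun (ModuleCat.hom_ext_iff.mp e) y

end Squares

/-- The Shapiro map on level-constant cohomology is injective in every degree (no hypothesis
on `H`). -/
theorem sh_injective {D : LevelDatum G} {H : Subgroup G} {D' : LevelDatum H}
    (h : IsRestrict D H D') (B : Rep.{0} k H) (n : ℕ) : Function.Injective (sh h B n) := by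
  rw [injective_iff_map_eq_zero]
  intro x hx
  obtain ⟨F₁, hF₁, hN₁, hall₁⟩ :=
    exists_level_forall_inflH_eq D (Rep.coind H.subtype B) n x
  have := D.sub_normal hN₁
  have hU : IsOpenN D (D.sub F₁) := isOpenN_sub D hF₁ hN₁
  obtain ⟨y, rfl⟩ := hall₁ (D.sub F₁) hU le_rfl
  rw [sh_inflH h B (D.sub F₁) hU n y] at hx
  obtain ⟨F₂, hF₂, hN₂, hall₂⟩ := exists_level_forall_inflQ_eq_zero D' B
    ((D.sub F₁).subgroupOf H) (isOpenN_subgroupOf h hU) n _ hx
  have hN' : ((F₁ ⊔ F₂).fixingSubgroup).Normal := normal_fixingSubgroup_sup hN₁ hN₂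
  have hF' : D.Lev (F₁ ⊔ F₂) := D.sup hF₁ ((h.lev_iff F₂).1 hF₂)
  have := D.sub_normal hN'
  have hU' : IsOpenN D (D.sub (F₁ ⊔ F₂)) := isOpenN_sub D hF' hN'
  have hle : D.sub (F₁ ⊔ F₂) ≤ D.sub F₁ := D.sub_antitone le_sup_left
  have h2 := hall₂ ((D.sub (F₁ ⊔ F₂)).subgroupOf H) (fun _ hz => hle hz)
    (isOpenN_subgroupOf h hU') (subgroupOf_le_sub h (D.sub_antitone le_sup_right))
  rw [← flSh_inflQ H B (D.sub (F₁ ⊔ F₂)) (D.sub F₁) hle n y] at h2
  have h4 : inflQ (Rep.coind H.subtype B) (D.sub (F₁ ⊔ F₂)) (D.sub F₁) hle n y = 0 :=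
    (flSh_bijective H B (D.sub (F₁ ⊔ F₂)) n).1 (h2.trans (map_zero _).symm)
  rw [← inflH_inflQ D (Rep.coind H.subtype B) (D.sub (F₁ ⊔ F₂)) (D.sub F₁) hle hU' hU n y, h4,
    map_zero]

/-- The Shapiro map on level-constant cohomology is surjective in every degree (no hypothesis
on `H`). -/
theorem sh_surjective {D : LevelDatum G} {H : Subgroup G} {D' : LevelDatum H}
    (h : IsRestrict D H D') (B : Rep.{0} k H) (n : ℕ) : Function.Surjective (sh h B n) := by
  intro z
  obtain ⟨F₁, hF₁, hN₁, hall₁⟩ := exists_level_forall_inflH_eq D' B n z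
  have hF : D.Lev F₁ := (h.lev_iff F₁).1 hF₁
  have := D.sub_normal hN₁
  have hU : IsOpenN D (D.sub F₁) := isOpenN_sub D hF hN₁
  obtain ⟨y, rfl⟩ := hall₁ ((D.sub F₁).subgroupOf H) (isOpenN_subgroupOf h hU)
    (subgroupOf_le_sub h le_rfl)
  obtain ⟨w, rfl⟩ := (flSh_bijective H B (D.sub F₁) n).2 y
  exact ⟨inflH D (Rep.coind H.subtype B) (D.sub F₁) hU n w, sh_inflH h B (D.sub F₁) hU n w⟩

/-- The Shapiro map on level-constant cohomology is bijective in every degree. -/
theorem sh_bijective {D : LevelDatum G} {H : Subgroup G} {D' : LevelDatum H}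
    (h : IsRestrict D H D') (B : Rep.{0} k H) (n : ℕ) : Function.Bijective (sh h B n) :=
  ⟨sh_injective h B n, sh_surjective h B n⟩

/-- **(SH-inj), every degree** (helper99's statement, verbatim). -/
theorem shInj (n : ℕ) : ShInjStatement n :=
  fun _ _ _ _ _ _ _ h _ B => sh_injective h B n

/-- **(SH-surj), every degree** (helper99's statement, verbatim). -/
theorem shSurj (n : ℕ) : ShSurjStatement n :=
  fun _ _ _ _ _ _ _ h _ B => sh_surjective h B n

end Fermat.Agent.S55.H73
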