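/-
S55 / Program C, package (SH) (helper73): Shapiro for level-constant cohomology in EVERY degree,
in the VERBATIM form of helper49's statement file `H49/ShapiroDefs.lean`:

  `shInj_h49 n : H49.ShInjStatement n`,   `shSurj_h49 n : H49.ShSurjStatement n`   (all `n`),

and `sh_h49_bijective` (no hypothesis on the subgroup).  Special case `B := Res_H A`,
`D' := D.restrict H` of `H73/ShapiroLc.lean`.
-/
import Fermat.Agent.S55.H73.ShapiroLc
import Fermat.Agent.S55.H49.ShapiroDefs

set_option autoImplicit false

open CategoryTheory groupCohomology

namespace Fermat.Agent.S55.H73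

variable {G : Type} [Group G] {k : Type} [CommRing k]

/-- helper49's restricted datum is a restriction in the sense of `H99.IsRestrict`. -/
theorem isRestrict_restrict (D : H49.LevelDatum G) (H : Subgroup G) :
    H99.IsRestrict D H (D.restrict H) :=
  ⟨fun _ => rfl, fun _ => Iff.rfl⟩

/-- helper49's Shapiro map is bijective in every degree, for every subgroup. -/
theorem sh_h49_bijective (D : H49.LevelDatum G) (H : Subgroup G) (A : Rep.{0} k G) (n : ℕ) :
    Function.Bijective (H49.sh D H A n).hom :=
  sh_bijective (isRestrict_restrict D H) (Rep.res H.subtype A) n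

/-- (SH-inj), every degree, verbatim `H49.ShInjStatement n`. -/
theorem shInj_h49 (n : ℕ) : H49.ShInjStatement n := fun _ _ _ _ D H A _ =>
  (sh_h49_bijective D H A n).1

/-- (SH-surj), every degree, verbatim `H49.ShSurjStatement n`. -/
theorem shSurj_h49 (n : ℕ) : H49.ShSurjStatement n := fun _ _ _ _ D H A _ =>
  (sh_h49_bijective D H A n).2

end Fermat.Agent.S55.H73
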